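import Fermat.Agent.MWL.Diag
import Fermat.Agent.MWH.LocLB
import Mathlib.FieldTheory.IntermediateField.Adjoin.Algebra
import Mathlib.FieldTheory.Perfect

/-!
# Affine rings of curves: finite type, tangent spaces
-/

set_option autoImplicit false
set_option linter.unusedSectionVars false
set_option linter.style.haveILetI false

noncomputable section

namespace Fermat.Agent.MWL

open AlgebraicCurve Fermat.Agent.Curves Fermat.Agent.PicFlat Fermat.Agent.MWH IntermediateField

variable {K F : Type*} [Field K] [IsAlgClosed K] [Field F] [Algebra K F] [IsFunctionField K F]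

open scoped IntermediateField.algebraAdjoinAdjoin in
theorem affine_finiteType [CharZero K] {t : F} (ht : Transcendental K t) :
    Algebra.FiniteType K (affineRing K t) := by
  haveI := finiteDimensional_adjoin_simple ht
  let e := Polynomial.algEquivOfTranscendental K t ht
  haveI : IsPrincipalIdealRing (Algebra.adjoin K {t}) :=
    IsPrincipalIdealRing.of_surjective e.toRingEquiv.toRingHom e.surjective
  haveI : CharZero K⟮t⟯ := charZero_of_injective_algebraMap (algebraMap K K⟮t⟯).injective
  haveI : Algebra.IsAlgebraic K⟮t⟯ F := Algebra.IsAlgebraic.of_finite _ _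
  haveI : Algebra.IsSeparable K⟮t⟯ F := inferInstance
  haveI : Module.Finite (Algebra.adjoin K {t}) (integralClosure (Algebra.adjoin K {t}) F) :=
    IsIntegralClosure.finite (Algebra.adjoin K {t}) K⟮t⟯ F
      (integralClosure (Algebra.adjoin K {t}) F)
  haveI h1 : Algebra.FiniteType K (Algebra.adjoin K {t}) :=
    (Subalgebra.fg_iff_finiteType _).1 ⟨{t}, by rw [Finset.coe_singleton]⟩
  have h2 : Algebra.FiniteType (Algebra.adjoin K {t})
    (integralClosure (Algebra.adjoin K {t}) F) := inferInstance
  have h3 : Algebra.FiniteType K (integralClosure (Algebra.adjoin K {t}) F) :=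
    Algebra.FiniteType.trans h1 h2
  have h4 : affineRing K t = (integralClosure (Algebra.adjoin K {t}) F).restrictScalars K := by
    ext x
    rw [mem_affineRing_iff_isIntegral]
    rfl
  rw [h4]
  exact h3

/-- `s - s(P)` generates the maximal ideal modulo its square -/
theorem affine_tan {t : F} (ht : Transcendental K t) {P : Place K F}
    (hP : t ∈ P.toValuationSubring) (φ : affineRing K t →ₐ[K] K)
    (hφ : ∀ x : affineRing K t, value P (x : F) = φ x) (s : affineRing K t)
    (hs : P.ord ((s : F) - algebraMap K F (value P (s : F))) = 1) (z : affineRing K t)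
    (hz : φ z = 0) : ∃ a : K, z - a • (s - algebraMap K _ (φ s)) ∈ RingHom.ker φ ^ 2 := by
  classical
  set s' : affineRing K t := s - algebraMap K _ (φ s) with hs'
  have hs'F : (s' : F) = (s : F) - algebraMap K F (value P (s : F)) := by
    rw [hs', hφ]; rfl
  have hs'ord : P.ord (s' : F) = 1 := by rw [hs'F]; exact hs
  have hs'0 : (s' : F) ≠ 0 := by
    intro h
    rw [h, Place.ord_zero] at hs'ord
    exact absurd hs'ord (by norm_num)
  have hs'ker : s' ∈ RingHom.ker φ := by
    rw [RingHom.mem_ker, hs', map_sub, AlgHom.commutes]; exact sub_self _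
  have hz0 : value P (z : F) = 0 := by rw [hφ]; exact hz
  have hzmem : (z : F) ∈ P.toValuationSubring := z.2 P hP
  have hdiv : (z : F) / s' ∈ P.toValuationSubring := by
    rcases eq_or_ne (z : F) 0 with h | h
    · rw [h, zero_div]; exact zero_mem _
    · rw [mem_iff_ord _ (div_ne_zero h hs'0), ord_div P h hs'0, hs'ord]
      rcases (val_lt_one_iff P).1 ((value_eq_zero_iff P hzmem).1 hz0) with h' | h'
      · exact absurd h' h
      · omega
  refine ⟨value P ((z : F) / s'), ?_⟩
  set a := value P ((z : F) / s') with ha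
  set z' := z - a • s' with hz'
  have hz'F : (z' : F) = ((z : F) / s' - algebraMap K F a) * s' := by
    have h1 : (z' : F) = (z : F) - a • (s' : F) := rfl
    rw [h1, sub_mul, div_mul_cancel₀ _ hs'0, Algebra.smul_def]
  by_contra hnot
  have hz'0 : (z' : F) ≠ 0 := by
    intro h
    apply hnot
    have : z' = 0 := Subtype.ext h
    rw [this]
    exact Ideal.zero_mem _
  have hz'ord : 2 ≤ P.ord (z' : F) := by
    have h1 : (z : F) / s' - algebraMap K F a ≠ 0 := by
      intro h
      rw [h, zero_mul] at hz'F
      exact hz'0 hz'F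
    rw [hz'F, P.ord_mul h1 hs'0, hs'ord]
    rcases (val_lt_one_iff P).1 (value_spec P hdiv) with h' | h'
    · exact absurd h' h1
    · have : 0 < P.ord ((z : F) / s' - algebraMap K F a) := h'
      omega
  have hJ : CI (RingHom.ker φ ^ 2) (Ideal.span {z'}) ≠ ⊤ := by
    intro h
    apply hnot
    have h1 : (1 : affineRing K t) ∈ CI (RingHom.ker φ ^ 2) (Ideal.span {z'}) := by
      rw [h]; trivial
    have h2 := h1 z' (Ideal.mem_span_singleton_self z')
    rwa [one_mul] at h2
  obtain ⟨M, hM, hle⟩ := Ideal.exists_le_maximal _ hJ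
  haveI := hM
  obtain ⟨Q, ⟨hQ, hQM⟩, -⟩ := existsUnique_place_of_isMaximal ht M
  have hCI : ∀ q : affineRing K t, q * z' ∈ RingHom.ker φ ^ 2 → q ∈ M := by
    intro q hq
    apply hle
    intro f hf
    obtain ⟨c, rfl⟩ := Ideal.mem_span_singleton'.1 hf
    rw [mul_left_comm]
    exact Ideal.mul_mem_left _ _ hq
  by_cases hQP : Q = P
  · subst hQP
    set f : F := (z' : F) / (s' : F) ^ 2 with hf
    have hf0 : f ≠ 0 := div_ne_zero hz'0 (pow_ne_zero _ hs'0)
    have hford : 0 ≤ Q.ord f := by
      rw [hf, ord_div Q hz'0 (pow_ne_zero _ hs'0), ord_pow, hs'ord]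
      push_cast
      omega
    obtain ⟨x, hx, hx0, hxQ, hxS⟩ := exists_separating ht hQ
      ((divisorOf f : Divisor K F).support.erase Q) (Finset.notMem_erase _ _)
      (∑ v ∈ (divisorOf f : Divisor K F).support.erase Q, (v.ord f).natAbs)
    have hxf : x * f ∈ affineRing K t := by
      intro w hw
      rw [mem_iff_ord _ (mul_ne_zero hx0 hf0), w.ord_mul hx0 hf0]
      have hxw : 0 ≤ w.ord x := (mem_iff_ord w hx0).1 (hx w hw)
      by_cases h1 : w = Q
      · subst h1; omega
      by_cases h2 : w.ord f = 0
      · omega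
      have h3 : w ∈ (divisorOf f : Divisor K F).support.erase Q := by
        rw [Finset.mem_erase, Finsupp.mem_support_iff]
        exact ⟨h1, h2⟩
      have h4 := hxS w h3 hw
      have h5 : (w.ord f).natAbs ≤
          ∑ v ∈ (divisorOf f : Divisor K F).support.erase Q, (v.ord f).natAbs :=
        Finset.single_le_sum (f := fun v : Place K F => (v.ord f).natAbs)
          (fun _ _ => Nat.zero_le _) h3
      have h6 : ((w.ord f).natAbs : ℤ) ≤
          ((∑ v ∈ (divisorOf f : Divisor K F).support.erase Q, (v.ord f).natAbs : ℕ) : ℤ) := by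
        exact_mod_cast h5
      omega
    have h1 : (⟨x, hx⟩ : affineRing K t) ∈ M := by
      apply hCI
      have : (⟨x, hx⟩ : affineRing K t) * z' = ⟨x * f, hxf⟩ * s' ^ 2 := by
        apply Subtype.ext
        change x * (z' : F) = x * f * (s' : F) ^ 2
        rw [hf]
        field_simp
      rw [this]
      exact Ideal.mul_mem_left _ _ (Ideal.pow_mem_pow hs'ker 2)
    have h2 := (hQM _).1 h1
    rcases (val_lt_one_iff Q).1 h2 with h' | h'
    · exact hx0 h'
    · have : 0 < Q.ord x := h'
      omega
  · apply hQP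
    refine eq_of_affineRing ht hQ hP fun x hx hxP => ?_
    have h1 : (⟨x, hx⟩ : affineRing K t) ∈ RingHom.ker φ := by
      rw [RingHom.mem_ker, ← hφ, value_eq_zero_iff P (hx P hP)]
      exact hxP
    have h2 : (⟨x, hx⟩ : affineRing K t) ^ 2 ∈ M := hCI _
      (Ideal.mul_mem_right _ _ (Ideal.pow_mem_pow h1 2))
    exact (hQM _).1 (hM.isPrime.mem_of_pow_mem 2 h2)

end Fermat.Agent.MWL
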