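import Fermat.Agent.MWL.Aff

/-!
# Affine charts of an embedded curve
-/

set_option autoImplicit false
set_option linter.unusedSectionVars false
set_option linter.style.haveILetI false

noncomputable section

namespace Fermat.Agent.MWL

open AlgebraicCurve Fermat.Agent.Curves Fermat.Agent.PicFlat Fermat.Agent.MWH

variable {K F ι : Type*} [Field K] [IsAlgClosed K] [Field F] [Algebra K F] [IsFunctionField K F]

section Emb

variable (E : Emb K F)

theorem dot_single (b : Fin (E.r + 1)) (P : Place K F) :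
    E.dot (Pi.single b 1) P = E.x P b := (E.x_eq_dot P b).symm

theorem single_ne (b : Fin (E.r + 1)) : (Pi.single b 1 : Fin (E.r + 1) → K) ≠ 0 := by
  intro h
  have := congrFun h b
  rw [Pi.single_eq_same] at this
  exact one_ne_zero this

theorem exists_pencil (b : Fin (E.r + 1)) : ∃ w, Pencil E w (Pi.single b 1) := by
  classical
  set S : Finset (Place K F) := (E.dv (Pi.single b 1)).support with hS
  set q : Place K F → Polynomial K := fun P =>
    ∑ k : Fin (E.r + 1), Polynomial.C (E.x P k) * Polynomial.X ^ (k : ℕ) with hq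
  have hq0 : ∀ P, q P ≠ 0 := by
    intro P h0
    apply E.x_ne_zero P
    funext k
    have h1 : (q P).coeff (k : ℕ) = E.x P k := by
      rw [hq]
      simp only [Polynomial.finset_sum_coeff, Polynomial.coeff_C_mul, Polynomial.coeff_X_pow]
      rw [Finset.sum_eq_single k]
      · simp
      · intro j _ hj
        rw [if_neg, mul_zero]
        intro h
        exact hj (Fin.ext h.symm)
      · intro h; exact absurd (Finset.mem_univ k) h
    rw [h0, Polynomial.coeff_zero] at h1
    exact h1.symm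
  have hprod : ∏ P ∈ S, q P ≠ 0 := Finset.prod_ne_zero_iff.2 fun P _ => hq0 P
  haveI : Infinite K := IsAlgClosed.instInfinite
  obtain ⟨a, ha⟩ := Infinite.exists_notMem_finset (∏ P ∈ S, q P).roots.toFinset
  rw [Multiset.mem_toFinset, Polynomial.mem_roots hprod, Polynomial.IsRoot.def,
    Polynomial.eval_prod] at ha
  have ha' : ∀ P ∈ S, (q P).eval a ≠ 0 := Finset.prod_ne_zero_iff.1 ha
  refine ⟨mvec E.r a, ⟨mvec_ne _ _, single_ne E b, fun P hP => ?_⟩⟩
  have h1 : P ∈ S := by
    rw [hS, Finsupp.mem_support_iff]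
    have := (E.dot_eq_zero_iff (single_ne E b) P).1 hP
    omega
  have h2 := ha' P h1
  rw [dot_mvec]
  intro h3
  apply h2
  rw [hq]
  simp only [Polynomial.eval_finset_sum, Polynomial.eval_mul, Polynomial.eval_C,
    Polynomial.eval_pow, Polynomial.eval_X]
  rw [← h3]
  exact Finset.sum_congr rfl fun k _ => mul_comm _ _

/-- sections with prescribed behaviour -/
theorem exists_sec (P Q : Place K F) : ∃ c : Fin (E.r + 1) → K, c ≠ 0 ∧ 1 ≤ E.dv c P ∧
    E.dv c Q = (Finsupp.single P 1 : Divisor K F) Q := by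
  classical
  have hdeg : Divisor.degree (Finsupp.single E.inf (E.m : ℤ) - Finsupp.single P 1 :
      Divisor K F) = E.m - 1 := by
    rw [map_sub, degree_single_one, degree_single_one]
  obtain ⟨f, hf, hf0, hfQ⟩ := E.rr.bpf (D := Finsupp.single E.inf (E.m : ℤ) -
    Finsupp.single P 1) (by rw [hdeg]; have := E.large; omega) Q
  have hf' : f ∈ riemannRochSpace (Finsupp.single E.inf (E.m : ℤ) : Divisor K F) := by
    refine (mem_iff_of_ne hf0).2 fun v => ?_
    have h1 := (mem_iff_of_ne hf0).1 hf v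
    rw [Finsupp.sub_apply] at h1
    have h2 : 0 ≤ (Finsupp.single P 1 : Divisor K F) v := by
      rw [Finsupp.single_apply]; split_ifs <;> norm_num
    omega
  obtain ⟨c, hc⟩ := E.exists_G hf'
  refine ⟨c, ?_, ?_, ?_⟩
  · rintro rfl
    apply hf0
    rw [← hc, Emb.G]
    simp
  · rw [E.dv_apply, hc]
    have h1 := (mem_iff_of_ne hf0).1 hf P
    rw [Finsupp.sub_apply, Finsupp.single_eq_same] at h1
    omega
  · rw [E.dv_apply, hc, hfQ, Finsupp.sub_apply]
    ring

theorem exists_dot {P Q : Place K F} (h : P ≠ Q) : ∃ c, E.dot c P = 0 ∧ E.dot c Q ≠ 0 := by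
  classical
  obtain ⟨c, hc, h1, h2⟩ := exists_sec E P Q
  refine ⟨c, (E.dot_eq_zero_iff hc P).2 (by omega), (E.dot_ne_zero_iff hc Q).2 ?_⟩
  rw [h2, Finsupp.single_apply, if_neg h]

theorem G_single (i : Fin (E.r + 1)) : E.G (Pi.single i 1) = E.f i := by
  rw [Emb.G, Finset.sum_eq_single i]
  · rw [Pi.single_eq_same, one_smul]
  · intro j _ hj
    rw [Pi.single_eq_of_ne hj, zero_smul]
  · intro h; exact absurd (Finset.mem_univ i) h

/-- some coordinate is a local parameter -/
theorem exists_param {b : Fin (E.r + 1)} {Q : Place K F} (hQ : E.x Q b ≠ 0) :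
    ∃ i, Q.ord (E.G (Pi.single i 1) / E.G (Pi.single b 1) -
      algebraMap K F (E.x Q i / E.x Q b)) = 1 := by
  obtain ⟨c, hc, h1, h2⟩ := exists_sec E Q Q
  rw [Finsupp.single_eq_same] at h2
  have hb : E.dot (Pi.single b 1) Q ≠ 0 := by rw [dot_single]; exact hQ
  have hval : ∀ i, value Q (E.G (Pi.single i 1) / E.G (Pi.single b 1)) =
      E.x Q i / E.x Q b := by
    intro i
    rw [Emb.value_ratio _ hb, dot_single, dot_single]
  by_contra hcon
  push Not at hcon
  set s : Fin (E.r + 1) → F := fun i => E.G (Pi.single i 1) / E.G (Pi.single b 1) -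
      algebraMap K F (E.x Q i / E.x Q b) with hs
  have hs2 : ∀ i, Q.adicValuation (s i) ≤ WithZero.exp (-2 : ℤ) := by
    intro i
    rcases eq_or_ne (s i) 0 with h | h
    · rw [h, map_zero]; exact zero_le'
    · rw [val_le_exp_iff Q h]
      have h3 : Q.adicValuation (s i) < 1 := by
        have := value_spec Q (Emb.ratio_mem (E := E) (Pi.single i 1) hb)
        rwa [hval i] at this
      rcases (val_lt_one_iff Q).1 h3 with h4 | h4
      · exact absurd h4 h
      · have := hcon i
        change Q.ord (s i) ≠ 1 at this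
        omega
  have hsum : E.G c / E.G (Pi.single b 1) = ∑ i, c i • s i := by
    have h4 : E.dot c Q = 0 := (E.dot_eq_zero_iff hc Q).2 (by omega)
    have h5 : ∑ i, c i • s i = (∑ i, c i • E.f i) / E.G (Pi.single b 1) -
        algebraMap K F (E.dot c Q / E.x Q b) := by
      rw [Emb.dot, Finset.sum_div, Finset.sum_div, map_sum, ← Finset.sum_sub_distrib]
      refine Finset.sum_congr rfl fun i _ => ?_
      rw [hs]
      simp only [G_single, Algebra.smul_def, map_div₀, map_mul]
      ring
    rw [h5, h4, zero_div, map_zero, sub_zero]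
    rfl
  have h6 : Q.adicValuation (E.G c / E.G (Pi.single b 1)) ≤ WithZero.exp (-2 : ℤ) := by
    rw [hsum]
    refine Valuation.map_sum_le _ fun i _ => ?_
    rw [Algebra.smul_def, map_mul]
    refine (mul_le_of_le_one_left' ?_).trans (hs2 i)
    rw [← mem_iff_val]
    exact Q.algebraMap_mem' (c i)
  have h7 : E.G c / E.G (Pi.single b 1) ≠ 0 :=
    div_ne_zero (E.G_ne_zero hc) (E.G_ne_zero (single_ne E b))
  rw [val_le_exp_iff Q h7, Emb.ord_ratio hc (single_ne E b), h2, Emb.dv_eq_zero hb] at h6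
  omega

end Emb

/-- an affine chart -/
structure Chart (E : Emb K F) where
  b : Fin (E.r + 1)
  w : Fin (E.r + 1) → K
  h : Pencil E w (Pi.single b 1)

namespace Chart

variable {E : Emb K F} (C : Chart E)

/-- the function whose poles are the points outside the chart -/
def t : F := E.G C.w / E.G (Pi.single C.b 1)

theorem transc : Transcendental K C.t := C.h.transc

theorem t_mem_iff (P : Place K F) : C.t ∈ P.toValuationSubring ↔ E.x P C.b ≠ 0 := by
  rw [t, C.h.t_mem_iff, dot_single]

/-- the ring of the chart -/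
abbrev R : Subalgebra K F := affineRing K C.t

/-- coordinates -/
def y (i : Fin (E.r + 1)) : C.R :=
  ⟨E.G (Pi.single i 1) / E.G (Pi.single C.b 1), fun P hP => by
    rw [C.t_mem_iff, ← dot_single] at hP
    exact Emb.ratio_mem _ hP⟩

theorem coe_y (i : Fin (E.r + 1)) : (C.y i : F) = E.G (Pi.single i 1) / E.G (Pi.single C.b 1) :=
  rfl

/-- evaluation -/
def ph (P : Place K F) (hP : E.x P C.b ≠ 0) : C.R →ₐ[K] K :=
  valueHom P C.R fun _ hx => hx P ((C.t_mem_iff P).2 hP)

theorem ph_apply {P : Place K F} (hP : E.x P C.b ≠ 0) (x : C.R) :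
    C.ph P hP x = value P (x : F) := rfl

theorem ph_y {P : Place K F} (hP : E.x P C.b ≠ 0) (i : Fin (E.r + 1)) :
    C.ph P hP (C.y i) = E.x P i / E.x P C.b := by
  have hb : E.dot (Pi.single C.b 1) P ≠ 0 := by rw [dot_single]; exact hP
  rw [ph_apply, coe_y, Emb.value_ratio _ hb, dot_single, dot_single]

theorem exists_ph (φ : C.R →ₐ[K] K) : ∃ (P : Place K F) (hP : E.x P C.b ≠ 0),
    φ = C.ph P hP := by
  obtain ⟨P, ⟨h1, h2⟩, -⟩ := existsUnique_place_of_algHom C.transc φ
  refine ⟨P, (C.t_mem_iff P).1 h1, ?_⟩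
  ext x
  rw [ph_apply, h2]

theorem eq_of_y {P Q : Place K F} (hP : E.x P C.b ≠ 0) (hQ : E.x Q C.b ≠ 0)
    (h : ∀ i, C.ph P hP (C.y i) = C.ph Q hQ (C.y i)) : P = Q := by
  by_contra hne
  obtain ⟨c, h1, h2⟩ := exists_dot E hne
  apply h2
  have h3 : E.dot c P / E.x P C.b = E.dot c Q / E.x Q C.b := by
    rw [Emb.dot, Emb.dot, Finset.sum_div, Finset.sum_div]
    refine Finset.sum_congr rfl fun i _ => ?_
    have := h i
    rw [ph_y, ph_y] at this
    rw [mul_div_assoc, mul_div_assoc, this]
  rw [h1, zero_div, eq_comm, div_eq_zero_iff, or_iff_left hQ] at h3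
  exact h3

theorem finiteType [CharZero K] : Algebra.FiniteType K C.R := affine_finiteType C.transc

theorem sm [CharZero K] : Sm K C.y where
  sep φ ψ h := by
    obtain ⟨P, hP, rfl⟩ := C.exists_ph φ
    obtain ⟨Q, hQ, rfl⟩ := C.exists_ph ψ
    obtain rfl := C.eq_of_y hP hQ h
    rfl
  tan φ := by
    obtain ⟨P, hP, rfl⟩ := C.exists_ph φ
    obtain ⟨i, hi⟩ := exists_param E hP
    refine ⟨i, fun z hz => ?_⟩
    refine affine_tan C.transc ((C.t_mem_iff P).2 hP) (C.ph P hP) (fun _ => rfl) (C.y i) ?_ z hz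
    rw [← C.ph_apply hP, C.ph_y hP]
    exact hi

end Chart

end Fermat.Agent.MWL
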