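import Fermat.Agent.MWL.Nak
import Mathlib.RingTheory.TensorProduct.Maps
import Mathlib.RingTheory.Jacobson.Ring
import Mathlib.RingTheory.FiniteType
import Mathlib.FieldTheory.IsAlgClosed.Basic
import Mathlib.RingTheory.Ideal.Colon

/-!
# The diagonal of a smooth affine curve
-/

set_option autoImplicit false

noncomputable section

namespace Fermat.Agent.MWL

open TensorProduct

variable {K R : Type*} [Field K] [CommRing R] [Algebra K R]

variable (K) in
/-- `1 ⊗ z - z ⊗ 1` -/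
def dlt (z : R) : R ⊗[K] R := 1 ⊗ₜ[K] z - z ⊗ₜ[K] 1

variable (K R) in
/-- multiplication -/
def mu : R ⊗[K] R →ₐ[R] R := Algebra.TensorProduct.lmul'' K

theorem mu_tmul (a b : R) : mu K R (a ⊗ₜ[K] b) = a * b := rfl

theorem mu_dlt (z : R) : mu K R (dlt K z) = 0 := by
  rw [dlt, map_sub, mu_tmul, mu_tmul]; ring

/-- points of a finitely generated algebra -/
theorem algHom_of_maximal [IsAlgClosed K] [Algebra.FiniteType K R] (M : Ideal R)
    [hM : M.IsMaximal] : ∃ φ : R →ₐ[K] K, RingHom.ker φ = M := by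
  letI := Ideal.Quotient.field M
  haveI : Algebra.FiniteType K (R ⧸ M) :=
    Algebra.FiniteType.of_surjective (Ideal.Quotient.mkₐ K M) (Ideal.Quotient.mkₐ_surjective K M)
  haveI : Module.Finite K (R ⧸ M) := finite_of_finite_type_of_isJacobsonRing K (R ⧸ M)
  have hb : Function.Bijective (algebraMap K (R ⧸ M)) :=
    IsAlgClosed.algebraMap_bijective_of_isIntegral
  let e : K ≃ₐ[K] (R ⧸ M) := AlgEquiv.ofBijective (Algebra.ofId K (R ⧸ M)) hb
  refine ⟨(e.symm : (R ⧸ M) →ₐ[K] K).comp (Ideal.Quotient.mkₐ K M), ?_⟩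
  ext x
  rw [RingHom.mem_ker, AlgHom.comp_apply]
  constructor
  · intro h
    have h2 : (Ideal.Quotient.mkₐ K M) x = 0 := by
      have := congrArg e h
      rw [map_zero] at this
      have h3 : e ((e.symm : (R ⧸ M) →ₐ[K] K) ((Ideal.Quotient.mkₐ K M) x)) =
        (Ideal.Quotient.mkₐ K M) x := e.apply_symm_apply _
      rwa [h3] at this
    exact Ideal.Quotient.eq_zero_iff_mem.1 h2
  · intro h
    have h2 : (Ideal.Quotient.mkₐ K M) x = 0 := Ideal.Quotient.eq_zero_iff_mem.2 h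
    rw [h2, map_zero]

theorem adjoin_right (Z : Set R) (hZ : Algebra.adjoin K Z = ⊤) :
    Algebra.adjoin R ((fun z : R => (1 : R) ⊗ₜ[K] z) '' Z) = ⊤ := by
  rw [eq_top_iff]
  intro x _
  have h1 : ∀ z : R, (1 : R) ⊗ₜ[K] z ∈
      Algebra.adjoin R ((fun z : R => (1 : R) ⊗ₜ[K] z) '' Z) := by
    intro z
    have hz : z ∈ Algebra.adjoin K Z := by rw [hZ]; exact Algebra.mem_top
    induction hz using Algebra.adjoin_induction with
    | mem y hy => exact Algebra.subset_adjoin ⟨y, hy, rfl⟩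
    | algebraMap a =>
      have : (1 : R) ⊗ₜ[K] (algebraMap K R a) = algebraMap R (R ⊗[K] R) (algebraMap K R a) := by
        rw [Algebra.TensorProduct.algebraMap_apply, Algebra.algebraMap_self, RingHom.id_apply,
          Algebra.algebraMap_eq_smul_one, TensorProduct.tmul_smul, TensorProduct.smul_tmul']
      rw [this]
      exact Subalgebra.algebraMap_mem _ _
    | add x y _ _ hx hy => rw [TensorProduct.tmul_add]; exact add_mem hx hy
    | mul x y _ _ hx hy =>
      have : (1 : R) ⊗ₜ[K] (x * y) = ((1 : R) ⊗ₜ[K] x) * ((1 : R) ⊗ₜ[K] y) := by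
        rw [Algebra.TensorProduct.tmul_mul_tmul, one_mul]
      rw [this]
      exact mul_mem hx hy
  induction x using TensorProduct.induction_on with
  | zero => exact zero_mem _
  | tmul a b =>
    have : a ⊗ₜ[K] b = a • ((1 : R) ⊗ₜ[K] b) := by
      rw [TensorProduct.smul_tmul', smul_eq_mul, mul_one]
    rw [this]
    exact Subalgebra.smul_mem _ (h1 b) a
  | add x y hx hy => exact add_mem (hx trivial) (hy trivial)

theorem dlt_aux (z s : R) (a : K) : dlt K z = (1 : R) ⊗ₜ[K] (z - a • s) +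
    (a • dlt K s + (a • s) ⊗ₜ[K] 1 - z ⊗ₜ[K] 1) := by
  rw [dlt, dlt, TensorProduct.tmul_sub, TensorProduct.tmul_smul, smul_sub,
    ← TensorProduct.smul_tmul' a s (1 : R)]
  ring

theorem finiteType_tensor [h : Algebra.FiniteType K R] : Algebra.FiniteType K (R ⊗[K] R) := by
  have h2 : Algebra.FiniteType R (R ⊗[K] R) := by
    obtain ⟨Z, hZ⟩ := h.out
    classical
    refine ⟨⟨Z.image (fun z : R => (1 : R) ⊗ₜ[K] z), ?_⟩⟩
    rw [Finset.coe_image]
    exact adjoin_right _ hZ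
  exact Algebra.FiniteType.trans h h2

/-- **local principality of the diagonal** -/
theorem exists_u [Algebra.FiniteType K R] (φ : R →ₐ[K] K) (s : R)
    (hs : ∀ z : R, φ z = 0 → ∃ a : K, z - a • (s - algebraMap K R (φ s)) ∈ RingHom.ker φ ^ 2) :
    ∃ u : R ⊗[K] R, φ (mu K R u) ≠ 0 ∧
      ∀ f ∈ RingHom.ker (mu K R), u * f ∈ Ideal.span {dlt K s} := by
  obtain ⟨Z, hZ⟩ := (inferInstance : Algebra.FiniteType K R).out
  have halg : ∀ r : R, algebraMap R (R ⊗[K] R) r = r ⊗ₜ[K] 1 := fun r => by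
    rw [Algebra.TensorProduct.algebraMap_apply, Algebra.algebraMap_self, RingHom.id_apply]
  have hd : ∀ z : R, (1 : R) ⊗ₜ[K] z - algebraMap R (R ⊗[K] R) (mu K R ((1 : R) ⊗ₜ[K] z)) =
      dlt K z := fun z => by
    rw [mu_tmul, one_mul, halg, dlt]
  set φ' : R →+* K := (φ : R →+* K) with hφ'
  set m : Ideal R := RingHom.ker φ with hm
  have hright : ∀ z ∈ m, (1 : R) ⊗ₜ[K] z ∈ Mx m (mu K R) := by
    intro z hz
    rw [mem_Mx, mu_tmul, one_mul]
    exact hz
  have hright2 : ∀ z ∈ m ^ 2, (1 : R) ⊗ₜ[K] z ∈ Mx m (mu K R) ^ 2 := by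
    intro z hz
    have h1 : (m ^ 2).map (Algebra.TensorProduct.includeRight : R →ₐ[K] R ⊗[K] R) ≤
        Mx m (mu K R) ^ 2 := by
      rw [Ideal.map_pow]
      apply Ideal.pow_right_mono
      rw [Ideal.map_le_iff_le_comap]
      intro z hz
      exact hright z hz
    exact h1 (Ideal.mem_map_of_mem _ hz)
  have htan : ∀ y ∈ (fun z : R => (1 : R) ⊗ₜ[K] z) '' (Z : Set R),
      y - algebraMap R (R ⊗[K] R) (mu K R y) ∈
        Ideal.span {(1 : R) ⊗ₜ[K] s - algebraMap R (R ⊗[K] R) (mu K R ((1 : R) ⊗ₜ[K] s))} ⊔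
          m.map (algebraMap R (R ⊗[K] R)) ⊔ Mx m (mu K R) ^ 2 := by
    rintro _ ⟨z, _, rfl⟩
    simp only [hd]
    obtain ⟨a, ha⟩ := hs (z - algebraMap K R (φ z)) (by
      rw [map_sub, AlgHom.commutes]; exact sub_self _)
    have hz' : z - algebraMap K R (φ z) ∈ m := by
      rw [hm, RingHom.mem_ker, map_sub, AlgHom.commutes]; exact sub_self _
    have hs' : s - algebraMap K R (φ s) ∈ m := by
      rw [hm, RingHom.mem_ker, map_sub, AlgHom.commutes]; exact sub_self _
    set z' := z - algebraMap K R (φ z) with hz'd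
    set s' := s - algebraMap K R (φ s) with hs'd
    have hdc : ∀ (w : R) (c : K), dlt K (w - algebraMap K R c) = dlt K w := by
      intro w c
      rw [dlt, dlt, TensorProduct.tmul_sub, TensorProduct.sub_tmul,
        Algebra.algebraMap_eq_smul_one, TensorProduct.tmul_smul, TensorProduct.smul_tmul']
      ring
    have e1 : dlt K z = (1 : R) ⊗ₜ[K] (z' - a • s') + (a • dlt K s + (algebraMap R (R ⊗[K] R)
        (a • s')) - algebraMap R (R ⊗[K] R) z') := by
      rw [← hdc z (φ z), ← hdc s (φ s), ← hz'd, ← hs'd, halg, halg]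
      exact dlt_aux z' s' a
    rw [e1]
    refine Ideal.add_mem _ (Ideal.mem_sup_right (hright2 _ ha)) (Ideal.mem_sup_left
      (Ideal.sub_mem _ (Ideal.add_mem _ (Ideal.mem_sup_left ?_) (Ideal.mem_sup_right ?_))
        (Ideal.mem_sup_right ?_)))
    · rw [Algebra.smul_def]
      exact Ideal.mul_mem_left _ _ (Ideal.subset_span rfl)
    · apply Ideal.mem_map_of_mem
      rw [Algebra.smul_def]
      exact Ideal.mul_mem_left _ _ hs'
    · exact Ideal.mem_map_of_mem _ hz'
  obtain ⟨u, hu, hu'⟩ := exists_unit_div m (mu K R) _ (Z.finite_toSet.image _)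
    (adjoin_right (Z : Set R) hZ) _ htan
  refine ⟨u, ?_, fun f hf => ?_⟩
  · rw [mem_Mx, map_sub, map_one, hm, RingHom.mem_ker, map_sub, map_one, sub_eq_zero] at hu
    rw [hu]
    exact one_ne_zero
  · rw [← hd]
    exact hu' f hf

/-- colon ideal -/
def CI {S : Type*} [CommRing S] (J I : Ideal S) : Ideal S where
  carrier := {u | ∀ f ∈ I, u * f ∈ J}
  add_mem' := by
    intro a b ha hb f hf
    rw [add_mul]
    exact Ideal.add_mem _ (ha f hf) (hb f hf)
  zero_mem' := by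
    intro f _
    rw [zero_mul]
    exact Ideal.zero_mem _
  smul_mem' := by
    intro c x hx f hf
    rw [smul_eq_mul, mul_assoc]
    exact Ideal.mul_mem_left _ _ (hx f hf)

theorem mem_CI {S : Type*} [CommRing S] {J I : Ideal S} {u : S} :
    u ∈ CI J I ↔ ∀ f ∈ I, u * f ∈ J := Iff.rfl

/-- coordinates which separate points and tangent vectors -/
structure Sm (K : Type*) {R : Type*} [Field K] [CommRing R] [Algebra K R] {n : ℕ}
    (y : Fin n → R) : Prop where
  sep : ∀ φ ψ : R →ₐ[K] K, (∀ i, φ (y i) = ψ (y i)) → φ = ψ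
  tan : ∀ φ : R →ₐ[K] K, ∃ i, ∀ z, φ z = 0 → ∃ a : K,
    z - a • (y i - algebraMap K R (φ (y i))) ∈ RingHom.ker φ ^ 2

theorem mu_surj : Function.Surjective (mu K R) := fun r => ⟨1 ⊗ₜ[K] r, by
  rw [mu_tmul, one_mul]⟩

/-- **local equations of the diagonal**, with a partition of unity -/
theorem Sm.exists_units [IsAlgClosed K] [Algebra.FiniteType K R] {n : ℕ} {y : Fin n → R}
    (h : Sm K y) : ∃ u : Fin n → R ⊗[K] R,
      (∀ i, ∀ f ∈ RingHom.ker (mu K R), u i * f ∈ Ideal.span {dlt K (y i)}) ∧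
      ∑ i, mu K R (u i) = 1 := by
  set 𝔟 : Fin n → Ideal R := fun i =>
    (CI (Ideal.span {dlt K (y i)}) (RingHom.ker (mu K R))).map (mu K R) with h𝔟
  have htop : (⨆ i, 𝔟 i) = ⊤ := by
    by_contra hne
    obtain ⟨M, hM, hle⟩ := Ideal.exists_le_maximal _ hne
    haveI := hM
    obtain ⟨φ, hφ⟩ := algHom_of_maximal (K := K) M
    obtain ⟨i, hi⟩ := h.tan φ
    obtain ⟨u, hu, hu'⟩ := exists_u φ (y i) hi
    apply hu
    have h1 : mu K R u ∈ 𝔟 i := Ideal.mem_map_of_mem _ hu'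
    have h2 : mu K R u ∈ M := hle ((le_iSup 𝔟 i) h1)
    rw [← hφ, RingHom.mem_ker] at h2
    exact h2
  have h1 : (1 : R) ∈ ⨆ i, 𝔟 i := by rw [htop]; trivial
  obtain ⟨f, hf, hf1⟩ := (Submodule.mem_iSup_iff_exists_finsupp 𝔟 1).1 h1
  have hf2 : ∀ i, ∃ u : R ⊗[K] R, u ∈ CI (Ideal.span {dlt K (y i)}) (RingHom.ker (mu K R)) ∧
      mu K R u = f i := fun i =>
    (Ideal.mem_map_iff_of_surjective (mu K R) mu_surj).1 (hf i)
  choose u hu hu' using hf2
  refine ⟨u, hu, ?_⟩
  simp only [hu']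
  rw [← hf1, Finsupp.sum_fintype _ _ (fun _ => rfl)]

/-- **the coordinates generate the ideal of the diagonal** -/
theorem Sm.diag_gen [IsAlgClosed K] [Algebra.FiniteType K R] {n : ℕ} {y : Fin n → R}
    (h : Sm K y) (z : R) : ∃ g : Fin n → R ⊗[K] R, ∑ i, g i * dlt K (y i) = dlt K z := by
  rw [← Ideal.mem_span_range_iff_exists_fun]
  set J : Ideal (R ⊗[K] R) := Ideal.span (Set.range fun i => dlt K (y i)) with hJ
  have htop : CI J (RingHom.ker (mu K R)) = ⊤ := by
    by_contra hne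
    obtain ⟨M, hM, hle⟩ := Ideal.exists_le_maximal _ hne
    haveI := hM
    haveI := finiteType_tensor (K := K) (R := R)
    obtain ⟨Φ, hΦ⟩ := algHom_of_maximal (K := K) M
    have hJle : J ≤ M := fun x hx => hle (fun f _ => Ideal.mul_mem_right _ _ hx)
    have heq : Φ.comp Algebra.TensorProduct.includeLeft =
        Φ.comp (Algebra.TensorProduct.includeRight : R →ₐ[K] R ⊗[K] R) := by
      apply h.sep
      intro i
      have h1 : Φ (dlt K (y i)) = 0 := by
        have : dlt K (y i) ∈ M := hJle (Ideal.subset_span ⟨i, rfl⟩)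
        rw [← hΦ, RingHom.mem_ker] at this
        exact this
      rw [dlt, map_sub, sub_eq_zero] at h1
      exact h1.symm
    set φ : R →ₐ[K] K := Φ.comp (Algebra.TensorProduct.includeRight : R →ₐ[K] R ⊗[K] R) with hφ
    have hΦφ : Φ = φ.comp ((mu K R).restrictScalars K) := by
      apply Algebra.TensorProduct.ext
      · rw [heq]
        ext r
        change Φ (1 ⊗ₜ[K] r) = Φ (1 ⊗ₜ[K] (r * 1))
        rw [mul_one]
      · ext r
        change Φ (1 ⊗ₜ[K] r) = Φ (1 ⊗ₜ[K] (1 * r))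
        rw [one_mul]
    obtain ⟨i, hi⟩ := h.tan φ
    obtain ⟨u, hu, hu'⟩ := exists_u φ (y i) hi
    apply hu
    have h2 : u ∈ M := hle (fun f hf => by
      refine (Ideal.span_le.2 ?_) (hu' f hf)
      rintro _ rfl
      exact Ideal.subset_span ⟨i, rfl⟩)
    rw [← hΦ, RingHom.mem_ker] at h2
    rw [hΦφ] at h2
    exact h2
  have h3 : (1 : R ⊗[K] R) ∈ CI J (RingHom.ker (mu K R)) := by rw [htop]; trivial
  have h4 := h3 (dlt K z) (mu_dlt z)
  rwa [one_mul] at h4

end Fermat.Agent.MWL
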