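import Fermat.Agent.MWL.Chart

/-!
# Bounded families of functions on a chart
-/

set_option autoImplicit false
set_option linter.unusedSectionVars false
set_option linter.style.haveILetI false

noncomputable section

namespace Fermat.Agent.MWL

open AlgebraicCurve Fermat.Agent.Curves Fermat.Agent.PicFlat Fermat.Agent.MWH TensorProduct

section Alg

variable {K R : Type*} [Field K] [CommRing R] [Algebra K R]

/-- partial evaluation of the left variable -/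
def pl (φ : R →ₐ[K] K) : R ⊗[K] R →ₐ[K] R :=
  Algebra.TensorProduct.lift ((Algebra.ofId K R).comp φ) (AlgHom.id K R) (fun _ _ => mul_comm _ _)

theorem pl_tmul (φ : R →ₐ[K] K) (a b : R) : pl φ (a ⊗ₜ[K] b) = φ a • b := by
  rw [pl, Algebra.TensorProduct.lift_tmul, Algebra.smul_def]
  rfl

theorem pl_dlt (φ : R →ₐ[K] K) (z : R) : pl φ (dlt K z) = z - algebraMap K R (φ z) := by
  rw [dlt, map_sub, pl_tmul, pl_tmul, map_one, one_smul, Algebra.smul_def, mul_one]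

/-- evaluation of both variables -/
def pp (φ ψ : R →ₐ[K] K) : R ⊗[K] R →ₐ[K] K := ψ.comp (pl φ)

theorem pp_apply (φ ψ : R →ₐ[K] K) (T : R ⊗[K] R) : pp φ ψ T = ψ (pl φ T) := rfl

theorem pp_tmul (φ ψ : R →ₐ[K] K) (a b : R) : pp φ ψ (a ⊗ₜ[K] b) = φ a * ψ b := by
  rw [pp_apply, pl_tmul, map_smul, smul_eq_mul]

theorem pp_dlt (φ ψ : R →ₐ[K] K) (z : R) : pp φ ψ (dlt K z) = ψ z - φ z := by
  rw [pp_apply, pl_dlt, map_sub, AlgHom.commutes]; rfl

theorem pp_self (φ : R →ₐ[K] K) (T : R ⊗[K] R) : pp φ φ T = φ (mu K R T) := by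
  induction T using TensorProduct.induction_on with
  | zero => rw [map_zero, map_zero, map_zero]
  | tmul a b => rw [pp_tmul, mu_tmul, map_mul]
  | add x y hx hy => rw [map_add, map_add, map_add, hx, hy]

end Alg

variable {K F ι : Type*} [Field K] [IsAlgClosed K] [Field F] [Algebra K F] [IsFunctionField K F]

namespace Chart

variable {E : Emb K F} (C : Chart E) (A : AVFam K ι)

/-- points of the chart -/
def Pt : Type _ := {P : Place K F // E.x P C.b ≠ 0}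

/-- evaluation at a point -/
def ev (P : C.Pt) : C.R →ₐ[K] K := C.ph P.1 P.2

theorem ev_apply (P : C.Pt) (x : C.R) : C.ev P x = value P.1 (x : F) := rfl

theorem ev_y (P : C.Pt) (i : Fin (E.r + 1)) : C.ev P (C.y i) = E.x P.1 i / E.x P.1 C.b :=
  C.ph_y P.2 i

/-- points with coordinates `≤ 2` (`≤ 1` if non-archimedean) -/
def Reg (v : ι) (P : C.Pt) : Prop := ∀ i, A.nv v (C.ev P (C.y i)) ≤ A.cst 2 v

/-- **functions are bounded** -/
theorem bd (z : C.R) : ∃ D, MC D ∧ ∀ v (P : C.Pt), C.Reg A v P → A.nv v (C.ev P z) ≤ D v := by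
  obtain ⟨B₀, hB₀, hB₀'⟩ := A.exists_lin C.w
  have hB : MC (fun v => B₀ v * A.cst 2 v) := hB₀.mul (A.mc_cst 2)
  obtain ⟨D, hD, hD'⟩ := A.exists_int (t := C.t) (g := (z : F)) z.2 hB
  refine ⟨D, hD, fun v P hP => ?_⟩
  rw [C.ev_apply]
  refine hD' v P.1 ((C.t_mem_iff _).2 P.2) ?_
  have h1 : value P.1 C.t = ∑ i, C.w i * C.ev P (C.y i) := by
    have hb : E.dot (Pi.single C.b 1) P.1 ≠ 0 := by rw [dot_single]; exact P.2
    rw [t, Emb.value_ratio _ hb, dot_single, Emb.dot, Finset.sum_div]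
    refine Finset.sum_congr rfl fun i _ => ?_
    rw [ev_y, mul_div_assoc]
  rw [h1]
  exact hB₀' v _ _ ((A.mc_cst 2).nonneg v) hP

theorem bd2 (T : C.R ⊗[K] C.R) : ∃ D, MC D ∧ ∀ v (P Q : C.Pt), C.Reg A v P → C.Reg A v Q →
    A.nv v (pp (C.ev P) (C.ev Q) T) ≤ D v := by
  induction T using TensorProduct.induction_on with
  | zero =>
    refine ⟨_, MC.one, fun v P Q _ _ => ?_⟩
    rw [map_zero, map_zero]
    exact zero_le_one
  | tmul a b =>
    obtain ⟨D₁, h₁, h₁'⟩ := C.bd A a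
    obtain ⟨D₂, h₂, h₂'⟩ := C.bd A b
    refine ⟨_, h₁.mul h₂, fun v P Q hP hQ => ?_⟩
    rw [pp_tmul, map_mul]
    exact mul_le_mul (h₁' v P hP) (h₂' v Q hQ) (AbsoluteValue.nonneg _ _) (h₁.nonneg v)
  | add x y hx hy =>
    obtain ⟨D₁, h₁, h₁'⟩ := hx
    obtain ⟨D₂, h₂, h₂'⟩ := hy
    refine ⟨_, (A.mc_cst 2).mul (h₁.mul h₂), fun v P Q hP hQ => ?_⟩
    rw [map_add]
    have := A.sum_le' (α := Fin 2) (fun k => if k = 0 then pp (C.ev P) (C.ev Q) x else
      pp (C.ev P) (C.ev Q) y) v (M := D₁ v * D₂ v) (mul_nonneg (h₁.nonneg v) (h₂.nonneg v)) (by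
        intro k
        fin_cases k
        · exact (h₁' v P Q hP hQ).trans (le_mul_of_one_le_right (h₁.nonneg v) (h₂.one_le v))
        · exact (h₂' v P Q hP hQ).trans (le_mul_of_one_le_left (h₂.nonneg v) (h₁.one_le v)))
    simpa using this

/-- `v`-bounded combinations of a finite family -/
def BF {κ : Type} [Fintype κ] (e : κ → C.R) (v : ι) (M : ℝ) : Set C.R :=
  {h | ∃ a : κ → K, (∀ j, A.nv v (a j) ≤ M) ∧ h = ∑ j, a j • e j}

/-- bounded combinations have bounded values -/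
theorem BF_ev {κ : Type} [Fintype κ] (e : κ → C.R) : ∃ D, MC D ∧ ∀ v (P : C.Pt), C.Reg A v P →
    ∀ M, 0 ≤ M → ∀ h ∈ C.BF A e v M, A.nv v (C.ev P h) ≤ D v * M := by
  classical
  choose D hD hD' using fun j => C.bd A (e j)
  refine ⟨fun v => A.cst (Fintype.card κ) v * ∏ j, D j v,
    (A.mc_cst _).mul (MC.prod _ fun j _ => hD j), ?_⟩
  rintro v P hP M hM h ⟨a, ha, rfl⟩
  rw [map_sum, mul_assoc]
  refine A.sum_le' _ v (mul_nonneg (Finset.prod_nonneg fun j _ => (hD j).nonneg v) hM) fun j => ?_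
  rw [map_smul, smul_eq_mul, map_mul, mul_comm]
  refine mul_le_mul ?_ (ha j) (AbsoluteValue.nonneg _ _)
    (Finset.prod_nonneg fun j _ => (hD j).nonneg v)
  exact (hD' j v P hP).trans (MC.le_prod (fun a _ => hD a) (Finset.mem_univ j) v)

/-- partial evaluations lie in a bounded family -/
theorem pl_BF (T : C.R ⊗[K] C.R) : ∃ (κ : Type) (_ : Fintype κ) (e : κ → C.R) (D : ι → ℝ), MC D ∧
    ∀ v (P : C.Pt), C.Reg A v P → pl (C.ev P) T ∈ C.BF A e v (D v) := by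
  induction T using TensorProduct.induction_on with
  | zero =>
    refine ⟨Empty, inferInstance, fun _ => 0, _, MC.one, fun v P _ => ⟨fun _ => 0, ?_, ?_⟩⟩
    · rintro ⟨⟩
    · rw [map_zero]; simp
  | tmul a b =>
    obtain ⟨D, hD, hD'⟩ := C.bd A a
    refine ⟨Unit, inferInstance, fun _ => b, D, hD, fun v P hP => ⟨fun _ => C.ev P a,
      fun _ => hD' v P hP, ?_⟩⟩
    rw [pl_tmul]; simp
  | add x y hx hy =>
    obtain ⟨κ₁, i₁, e₁, D₁, h₁, h₁'⟩ := hx
    obtain ⟨κ₂, i₂, e₂, D₂, h₂, h₂'⟩ := hy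
    refine ⟨κ₁ ⊕ κ₂, inferInstance, Sum.elim e₁ e₂, _, h₁.mul h₂, fun v P hP => ?_⟩
    obtain ⟨a₁, ha₁, he₁⟩ := h₁' v P hP
    obtain ⟨a₂, ha₂, he₂⟩ := h₂' v P hP
    refine ⟨Sum.elim a₁ a₂, ?_, ?_⟩
    · rintro (j | j)
      · exact (ha₁ j).trans (le_mul_of_one_le_right (h₁.nonneg v) (h₂.one_le v))
      · exact (ha₂ j).trans (le_mul_of_one_le_left (h₂.nonneg v) (h₁.one_le v))
    · rw [map_add, he₁, he₂, Fintype.sum_sum_type]
      simp

theorem pl_BF' {κ₀ : Type} [Fintype κ₀] (T : κ₀ → C.R ⊗[K] C.R) :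
    ∃ (κ : Type) (_ : Fintype κ) (e : κ → C.R) (D : ι → ℝ), MC D ∧
    ∀ v (P : C.Pt), C.Reg A v P → ∀ M, ∀ a : κ₀ → K, (∀ j, A.nv v (a j) ≤ M) →
      ∑ j, a j • pl (C.ev P) (T j) ∈ C.BF A e v (D v * M) := by
  classical
  choose κ i e D hD hD' using fun j => C.pl_BF A (T j)
  refine ⟨Σ j, κ j, inferInstance, fun x => e x.1 x.2, fun v => ∏ j, D j v,
    MC.prod _ fun j _ => hD j, fun v P hP M a ha => ?_⟩
  choose c hc hc' using fun j => hD' j v P hP
  refine ⟨fun x => c x.1 x.2 * a x.1, ?_, ?_⟩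
  · rintro ⟨j, l⟩
    rw [map_mul]
    refine mul_le_mul ((hc j l).trans (MC.le_prod (fun a _ => hD a) (Finset.mem_univ j) v)) (ha j)
      (AbsoluteValue.nonneg _ _) (Finset.prod_nonneg fun j _ => (hD j).nonneg v)
  · rw [Fintype.sum_sigma]
    refine Finset.sum_congr rfl fun j _ => ?_
    rw [hc' j, Finset.smul_sum]
    refine Finset.sum_congr rfl fun l _ => ?_
    rw [smul_smul, mul_comm]

/-- **division at a zero** -/
theorem division {s : C.R} {u : C.R ⊗[K] C.R}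
    (hu : ∀ f ∈ RingHom.ker (mu K C.R), u * f ∈ Ideal.span {dlt K s}) {κ₀ : Type} [Fintype κ₀]
    (e₀ : κ₀ → C.R) : ∃ (κ : Type) (_ : Fintype κ) (e : κ → C.R) (D : ι → ℝ), MC D ∧
    ∀ v (Q : C.Pt), C.Reg A v Q → ∀ M, ∀ h ∈ C.BF A e₀ v M, C.ev Q h = 0 →
      ∃ h' ∈ C.BF A e v (D v * M),
        pl (C.ev Q) u * h = (s - algebraMap K _ (C.ev Q s)) * h' := by
  have h1 : ∀ j, ∃ T : C.R ⊗[K] C.R, T * dlt K s = u * dlt K (e₀ j) := fun j =>
    Ideal.mem_span_singleton'.1 (hu _ (mu_dlt _))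
  choose T hT using h1
  obtain ⟨κ, i, e, D, hD, hD'⟩ := C.pl_BF' A T
  refine ⟨κ, i, e, D, hD, ?_⟩
  rintro v Q hQ M h ⟨a, ha, hh⟩ h0
  refine ⟨_, hD' v Q hQ M a ha, ?_⟩
  have h2 : ∀ j, pl (C.ev Q) (T j) * (s - algebraMap K _ (C.ev Q s)) =
      pl (C.ev Q) u * (e₀ j - algebraMap K _ (C.ev Q (e₀ j))) := by
    intro j
    rw [← pl_dlt, ← pl_dlt, ← map_mul, ← map_mul, hT]
  have h3 : h = ∑ j, a j • (e₀ j - algebraMap K _ (C.ev Q (e₀ j))) := by
    have h4 : ∑ j, a j • (e₀ j - algebraMap K _ (C.ev Q (e₀ j))) =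
        (∑ j, a j • e₀ j) - algebraMap K _ (C.ev Q (∑ j, a j • e₀ j)) := by
      rw [map_sum, map_sum, ← Finset.sum_sub_distrib]
      refine Finset.sum_congr rfl fun j _ => ?_
      rw [smul_sub, map_smul, smul_eq_mul, map_mul, Algebra.smul_def, Algebra.smul_def]
    rw [h4, ← hh, h0, map_zero, sub_zero]
  rw [h3, Finset.mul_sum, Finset.mul_sum]
  refine Finset.sum_congr rfl fun j _ => ?_
  rw [mul_smul_comm, ← h2, mul_smul_comm, mul_comm]

end Chart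

end Fermat.Agent.MWL
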