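import Mathlib.RingTheory.Nakayama
import Mathlib.RingTheory.Adjoin.Basic
import Mathlib.RingTheory.Ideal.Maps
import Mathlib.RingTheory.Ideal.Quotient.Basic
import Mathlib.RingTheory.Finiteness.Basic
import Mathlib.Algebra.Polynomial.Identities

/-!
# Local divisibility by a local parameter (Nakayama)
-/

set_option autoImplicit false

namespace Fermat.Agent.MWL

variable {O R : Type*} [CommRing O] [CommRing R] [Algebra O R]

theorem sub_ev_mem_span (ev : R →ₐ[O] O) (Y : Set R) (hY : Algebra.adjoin O Y = ⊤) (r : R) :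
    r - algebraMap O R (ev r) ∈ Ideal.span ((fun y => y - algebraMap O R (ev y)) '' Y) := by
  have hr : r ∈ Algebra.adjoin O Y := by rw [hY]; exact Algebra.mem_top
  induction hr using Algebra.adjoin_induction with
  | mem y hy => exact Ideal.subset_span ⟨y, hy, rfl⟩
  | algebraMap a =>
    have : ev (algebraMap O R a) = a := by rw [AlgHom.commutes]; rfl
    rw [this, sub_self]
    exact Ideal.zero_mem _
  | add x y _ _ hx hy =>
    have : x + y - algebraMap O R (ev (x + y)) =
        (x - algebraMap O R (ev x)) + (y - algebraMap O R (ev y)) := by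
      rw [map_add, map_add]; ring
    rw [this]
    exact Ideal.add_mem _ hx hy
  | mul x y _ _ hx hy =>
    have : x * y - algebraMap O R (ev (x * y)) =
        y * (x - algebraMap O R (ev x)) + algebraMap O R (ev x) * (y - algebraMap O R (ev y)) := by
      rw [map_mul, map_mul]; ring
    rw [this]
    exact Ideal.add_mem _ (Ideal.mul_mem_left _ _ hx) (Ideal.mul_mem_left _ _ hy)

theorem sub_ev_mem_ker (ev : R →ₐ[O] O) (r : R) :
    r - algebraMap O R (ev r) ∈ RingHom.ker ev := by
  have : ev (algebraMap O R (ev r)) = ev r := by rw [AlgHom.commutes]; rfl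
  rw [RingHom.mem_ker, map_sub, this, sub_self]

theorem ker_eq_span (ev : R →ₐ[O] O) (Y : Set R) (hY : Algebra.adjoin O Y = ⊤) :
    RingHom.ker ev = Ideal.span ((fun y => y - algebraMap O R (ev y)) '' Y) := by
  apply le_antisymm
  · intro r hr
    have h1 := sub_ev_mem_span ev Y hY r
    rw [RingHom.mem_ker] at hr
    rwa [hr, map_zero, sub_zero] at h1
  · rw [Ideal.span_le]
    rintro _ ⟨y, _, rfl⟩
    exact sub_ev_mem_ker ev y

/-- the maximal ideal over `m` at the point `ev` -/
def Mx (m : Ideal O) (ev : R →ₐ[O] O) : Ideal R := m.comap (ev : R →+* O)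

theorem mem_Mx {m : Ideal O} {ev : R →ₐ[O] O} {r : R} : r ∈ Mx m ev ↔ ev r ∈ m := Iff.rfl

theorem map_le_Mx (m : Ideal O) (ev : R →ₐ[O] O) : m.map (algebraMap O R) ≤ Mx m ev := by
  rw [Ideal.map_le_iff_le_comap]
  intro a ha
  change ev (algebraMap O R a) ∈ m
  have : ev (algebraMap O R a) = a := by rw [AlgHom.commutes]; rfl
  rwa [this]

theorem Mx_le (m : Ideal O) (ev : R →ₐ[O] O) :
    Mx m ev ≤ RingHom.ker ev ⊔ m.map (algebraMap O R) := by
  intro r hr
  have : r = (r - algebraMap O R (ev r)) + algebraMap O R (ev r) := by ring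
  rw [this]
  exact Ideal.add_mem _ (Ideal.mem_sup_left (sub_ev_mem_ker ev r))
    (Ideal.mem_sup_right (Ideal.mem_map_of_mem _ hr))

theorem inf_le (m : Ideal O) (ev : R →ₐ[O] O) :
    RingHom.ker ev ⊓ m.map (algebraMap O R) ≤ Mx m ev * RingHom.ker ev := by
  have key : ∀ r ∈ m.map (algebraMap O R),
      r - algebraMap O R (ev r) ∈ Mx m ev * RingHom.ker ev ∧ ev r ∈ m := by
    intro r hr
    refine Submodule.span_induction (p := fun r _ =>
      r - algebraMap O R (ev r) ∈ Mx m ev * RingHom.ker ev ∧ ev r ∈ m) ?_ ?_ ?_ ?_ hr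
    · rintro _ ⟨a, ha, rfl⟩
      have : ev (algebraMap O R a) = a := by rw [AlgHom.commutes]; rfl
      rw [this, sub_self]
      exact ⟨Ideal.zero_mem _, ha⟩
    · rw [map_zero, map_zero, sub_zero]
      exact ⟨Ideal.zero_mem _, Ideal.zero_mem _⟩
    · rintro x y _ _ ⟨hx, hx'⟩ ⟨hy, hy'⟩
      have : x + y - algebraMap O R (ev (x + y)) =
          (x - algebraMap O R (ev x)) + (y - algebraMap O R (ev y)) := by
        rw [map_add, map_add]; ring
      rw [this, map_add]
      exact ⟨Ideal.add_mem _ hx hy, Ideal.add_mem _ hx' hy'⟩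
    · rintro a x _ ⟨hx, hx'⟩
      rw [smul_eq_mul]
      have : a * x - algebraMap O R (ev (a * x)) =
          a * (x - algebraMap O R (ev x)) + algebraMap O R (ev x) * (a - algebraMap O R (ev a)) := by
        rw [map_mul, map_mul]; ring
      rw [this, map_mul]
      refine ⟨Ideal.add_mem _ (Ideal.mul_mem_left _ _ hx) ?_, Ideal.mul_mem_left _ _ hx'⟩
      exact Ideal.mul_mem_mul (map_le_Mx m ev (Ideal.mem_map_of_mem _ hx')) (sub_ev_mem_ker ev a)
  rintro r ⟨hr, hr'⟩
  have h1 := (key r hr').1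
  have hr0 : ev r = 0 := hr
  rwa [hr0, map_zero, sub_zero] at h1

/-- **local divisibility** -/
theorem exists_unit_div (m : Ideal O) (ev : R →ₐ[O] O) (Y : Set R) (hYf : Y.Finite)
    (hY : Algebra.adjoin O Y = ⊤) (s : R)
    (htan : ∀ y ∈ Y, y - algebraMap O R (ev y) ∈
      Ideal.span {s - algebraMap O R (ev s)} ⊔ m.map (algebraMap O R) ⊔ Mx m ev ^ 2) :
    ∃ u : R, u - 1 ∈ Mx m ev ∧ ∀ f ∈ RingHom.ker ev, u * f ∈
      Ideal.span {s - algebraMap O R (ev s)} := by
  set I : Ideal R := RingHom.ker ev with hI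
  set M : Ideal R := Mx m ev with hM
  set Q : Ideal R := Ideal.span {s - algebraMap O R (ev s)} with hQ
  have hQI : Q ≤ I := by
    rw [hQ, Ideal.span_le]
    rintro _ rfl
    exact sub_ev_mem_ker ev s
  have hsq : M ^ 2 ≤ M * I ⊔ m.map (algebraMap O R) := by
    rw [pow_two]
    refine (Ideal.mul_mono_right (Mx_le m ev)).trans ?_
    rw [Ideal.mul_sup]
    exact sup_le le_sup_left (le_sup_of_le_right Ideal.mul_le_right)
  have hIs : I = Ideal.span ((fun y => y - algebraMap O R (ev y)) '' Y) := ker_eq_span ev Y hY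
  have hle0 : Q ⊔ m.map (algebraMap O R) ⊔ M ^ 2 ≤ Q ⊔ M * I ⊔ m.map (algebraMap O R) :=
    sup_le (sup_le (le_sup_of_le_left le_sup_left) le_sup_right)
      (hsq.trans (sup_le (le_sup_of_le_left le_sup_right) le_sup_right))
  have hQaI : Q ⊔ M * I ≤ I := sup_le hQI (Ideal.mul_le_right (I := M) (J := I))
  have h1 : I ≤ Q ⊔ M * I := by
    refine hIs.le.trans (Ideal.span_le.2 ?_)
    rintro _ ⟨y, hy, rfl⟩
    have h2 : y - algebraMap O R (ev y) ∈ Q ⊔ M * I ⊔ m.map (algebraMap O R) :=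
      hle0 (htan y hy)
    obtain ⟨a, ha, b, hb, hab⟩ := Submodule.mem_sup.1 h2
    have haI : a ∈ I := hQaI ha
    have hbI : b ∈ I := by
      have : b = (y - algebraMap O R (ev y)) - a := by rw [← hab]; ring
      rw [this]
      exact Ideal.sub_mem _ (sub_ev_mem_ker ev y) haI
    have hb2 : b ∈ M * I := inf_le m ev ⟨hbI, hb⟩
    change y - algebraMap O R (ev y) ∈ ((Q ⊔ M * I : Ideal R) : Set R)
    rw [← hab]
    exact Ideal.add_mem _ ha (Ideal.mem_sup_right hb2)
  have hfg : I.FG := by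
    rw [hI, ker_eq_span ev Y hY]
    exact ⟨(hYf.image _).toFinset, by rw [Set.Finite.coe_toFinset]⟩
  set N : Submodule R (R ⧸ Q) := Submodule.map (Submodule.mkQ Q) I with hN
  have hNfg : N.FG := Submodule.FG.map _ hfg
  have hle : N ≤ M • N := by
    rw [hN]
    intro x hx
    obtain ⟨f, hf, rfl⟩ := hx
    obtain ⟨a, ha, b, hb, rfl⟩ := Submodule.mem_sup.1 (h1 hf)
    rw [map_add]
    have h3 : Submodule.mkQ Q a = 0 := by
      rw [Submodule.mkQ_apply, Submodule.Quotient.mk_eq_zero]; exact ha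
    rw [h3, zero_add]
    have h4 : Submodule.map (Submodule.mkQ Q) (M • (I : Submodule R R)) =
        M • Submodule.map (Submodule.mkQ Q) I := Submodule.map_smul'' _ _ _
    rw [← h4]
    exact ⟨b, hb, rfl⟩
  obtain ⟨u, hu, hu'⟩ := Submodule.exists_sub_one_mem_and_smul_eq_zero_of_fg_of_le_smul M N
    hNfg hle
  refine ⟨u, hu, fun f hf => ?_⟩
  have h5 := hu' (Submodule.mkQ Q f) ⟨f, hf, rfl⟩
  rw [← map_smul, Submodule.mkQ_apply, Submodule.Quotient.mk_eq_zero] at h5
  exact h5

end Fermat.Agent.MWL
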