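import Fermat.Agent.MWL.Est

/-!
# Orders, continuity, nearness
-/

set_option autoImplicit false
set_option linter.unusedSectionVars false
set_option linter.style.haveILetI false

noncomputable section

namespace Fermat.Agent.MWL

open AlgebraicCurve Fermat.Agent.Curves Fermat.Agent.PicFlat Fermat.Agent.MWH TensorProduct

variable {K F ι : Type*} [Field K] [IsAlgClosed K] [Field F] [Algebra K F] [IsFunctionField K F]

theorem ord_eq_zero_of_value {P : Place K F} {x : F} (hx : x ∈ P.toValuationSubring)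
    (h : value P x ≠ 0) : P.ord x = 0 := by
  rcases eq_or_ne x 0 with h0 | h0
  · rw [h0, P.ord_zero]
  · have h1 := (mem_iff_ord P h0).1 hx
    by_contra h2
    apply h
    rw [value_eq_zero_iff P hx]
    exact (val_lt_one_iff P).2 (Or.inr (by omega))

theorem one_le_ord_of_value {P : Place K F} {x : F} (hx : x ∈ P.toValuationSubring)
    (hx0 : x ≠ 0) (h : value P x = 0) : 1 ≤ P.ord x := by
  rw [value_eq_zero_iff P hx] at h
  rcases (val_lt_one_iff P).1 h with h' | h'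
  · exact absurd h' hx0
  · exact h'

theorem value_eq_zero_of_ord {P : Place K F} {x : F} (hx : x ∈ P.toValuationSubring)
    (h : 1 ≤ P.ord x) : value P x = 0 := by
  rw [value_eq_zero_iff P hx]
  exact (val_lt_one_iff P).2 (Or.inr (by omega))

theorem near_lemma (A : AVFam K ι) {C₁ C₂ : ι → ℝ} (h₁ : MC C₁) (h₂ : MC C₂) :
    ∃ N, MC N ∧ ∀ v (a b : K) (d : ℝ), 0 ≤ d → 1 ≤ C₁ v * A.nv v a →
      A.nv v (b - a) ≤ C₂ v * d → N v * d < 1 → 1 ≤ N v * A.nv v b := by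
  classical
  refine ⟨fun v => if IsNonarchimedean (A.nv v) ∧ C₁ v = 1 ∧ C₂ v = 1 then 1 else
    2 * C₁ v * C₂ v, ⟨fun v => ?_, ?_⟩, fun v a b d hd ha hb hN => ?_⟩
  · split_ifs
    · exact le_rfl
    · have := h₁.one_le v
      have := h₂.one_le v
      nlinarith
  · refine ((A.nonarch.union h₁.fin).union h₂.fin).subset ?_
    intro v hv
    simp only [Set.mem_setOf_eq, ne_eq] at hv
    simp only [Set.mem_union, Set.mem_setOf_eq]
    by_contra hcon
    push Not at hcon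
    apply hv
    rw [if_pos ⟨hcon.1.1, hcon.1.2, hcon.2⟩]
  · simp only at hN ⊢
    split_ifs at hN ⊢ with h
    · obtain ⟨hna, hc1, hc2⟩ := h
      rw [hc1, one_mul] at ha
      rw [hc2, one_mul] at hb
      rw [one_mul] at hN ⊢
      by_contra hlt
      push Not at hlt
      have h3 : A.nv v a ≤ max (A.nv v b) (A.nv v (a - b)) := by
        have := hna b (a - b)
        rwa [add_sub_cancel] at this
      rw [AbsoluteValue.map_sub] at h3
      rcases le_max_iff.1 h3 with h4 | h4 <;> linarith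
    · have hc1 := h₁.one_le v
      have hc2 := h₂.one_le v
      have h3 : A.nv v a ≤ A.nv v b + A.nv v (b - a) := by
        have := (A.nv v).add_le b (a - b)
        rw [add_sub_cancel, AbsoluteValue.map_sub] at this
        exact this
      have hnb := (A.nv v).nonneg b
      have h4 : 1 ≤ C₁ v * A.nv v b + C₁ v * C₂ v * d := by nlinarith
      have h5 : 1 ≤ 2 * (C₁ v * A.nv v b) := by nlinarith
      nlinarith [mul_nonneg (by linarith : (0:ℝ) ≤ C₁ v) hnb]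

namespace Chart

variable {E : Emb K F} (C : Chart E) (A : AVFam K ι)

theorem ev_mem (P : C.Pt) (x : C.R) : (x : F) ∈ P.1.toValuationSubring :=
  x.2 P.1 ((C.t_mem_iff _).2 P.2)

variable {C} in
/-- order of the factors -/
theorem ord_fac {i : Fin (E.r + 1)} {u : C.R ⊗[K] C.R}
    (hu : ∀ f ∈ RingHom.ker (mu K C.R), u * f ∈ Ideal.span {dlt K (C.y i)}) {Q Q₀ : C.Pt}
    (h : pp (C.ev Q) (C.ev Q₀) u ≠ 0) :
    ((C.y i - algebraMap K _ (C.ev Q (C.y i)) : C.R) : F) ≠ 0 ∧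
    (Q ≠ Q₀ → Q₀.1.ord ((C.y i - algebraMap K _ (C.ev Q (C.y i)) : C.R) : F) = 0) ∧
    (Q = Q₀ → Q₀.1.ord ((C.y i - algebraMap K _ (C.ev Q (C.y i)) : C.R) : F) = 1) := by
  set s' : C.R := C.y i - algebraMap K _ (C.ev Q (C.y i)) with hs'
  have hT : ∀ j, ∃ T : C.R ⊗[K] C.R, T * dlt K (C.y i) = u * dlt K (C.y j) := fun j =>
    Ideal.mem_span_singleton'.1 (hu _ (mu_dlt _))
  have key1 : Q ≠ Q₀ → value Q₀.1 (s' : F) ≠ 0 := by
    intro hne h0
    have h1 : ∃ j, C.ev Q (C.y j) ≠ C.ev Q₀ (C.y j) := by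
      by_contra hcon
      push Not at hcon
      exact hne (Subtype.ext (C.eq_of_y Q.2 Q₀.2 hcon))
    obtain ⟨j, hj⟩ := h1
    obtain ⟨T, hTj⟩ := hT j
    have h2 := congrArg (pp (C.ev Q) (C.ev Q₀)) hTj
    rw [map_mul, map_mul, pp_dlt, pp_dlt] at h2
    have h3 : C.ev Q₀ s' = C.ev Q₀ (C.y i) - C.ev Q (C.y i) := by
      rw [hs', map_sub, AlgHom.commutes]; rfl
    rw [← C.ev_apply, h3] at h0
    rw [h0, mul_zero, eq_comm, mul_eq_zero] at h2
    rcases h2 with h2 | h2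
    · exact h h2
    · exact hj (sub_eq_zero.1 h2).symm
  have key2 : Q = Q₀ → (s' : F) ≠ 0 ∧ Q₀.1.ord (s' : F) = 1 := by
    rintro rfl
    obtain ⟨j, hj⟩ := exists_param E Q.2
    have hj' : Q.1.ord ((C.y j - algebraMap K _ (C.ev Q (C.y j)) : C.R) : F) = 1 := by
      have : ((C.y j - algebraMap K _ (C.ev Q (C.y j)) : C.R) : F) =
          E.G (Pi.single j 1) / E.G (Pi.single C.b 1) -
            algebraMap K F (E.x Q.1 j / E.x Q.1 C.b) := by
        rw [← C.ev_y]; rfl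
      rw [this]
      exact hj
    obtain ⟨T, hTj⟩ := hT j
    have h2 := congrArg (pl (C.ev Q)) hTj
    rw [map_mul, map_mul, pl_dlt, pl_dlt, ← hs'] at h2
    have h3 := congrArg (Subtype.val : C.R → F) h2
    change (pl (C.ev Q) T : F) * (s' : F) = (pl (C.ev Q) u : F) *
      ((C.y j - algebraMap K _ (C.ev Q (C.y j)) : C.R) : F) at h3
    have hv : value Q.1 (pl (C.ev Q) u : F) ≠ 0 := h
    have hu0 : (pl (C.ev Q) u : F) ≠ 0 := by
      intro h0
      apply hv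
      rw [h0]
      have := value_algebraMap Q.1 (0 : K)
      rwa [map_zero] at this
    have hj0 : ((C.y j - algebraMap K _ (C.ev Q (C.y j)) : C.R) : F) ≠ 0 := by
      intro h0
      rw [h0, Place.ord_zero] at hj'
      exact absurd hj' (by norm_num)
    have hprod : (pl (C.ev Q) T : F) * (s' : F) ≠ 0 := by
      rw [h3]; exact mul_ne_zero hu0 hj0
    have hT0 := left_ne_zero_of_mul hprod
    have hs0 := right_ne_zero_of_mul hprod
    have h4 := congrArg Q.1.ord h3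
    rw [Q.1.ord_mul hT0 hs0, Q.1.ord_mul hu0 hj0, hj',
      ord_eq_zero_of_value (C.ev_mem Q _) hv] at h4
    have h5 := (mem_iff_ord Q.1 hT0).1 (C.ev_mem Q _)
    have h6 : 1 ≤ Q.1.ord (s' : F) := by
      apply one_le_ord_of_value (C.ev_mem Q _) hs0
      rw [← C.ev_apply, hs', map_sub, AlgHom.commutes]
      exact sub_self _
    exact ⟨hs0, by omega⟩
  refine ⟨?_, fun hne => ord_eq_zero_of_value (C.ev_mem Q₀ _) (key1 hne), fun he => (key2 he).2⟩
  by_cases he : Q = Q₀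
  · exact (key2 he).1
  · intro h0
    apply key1 he
    rw [h0]
    have := value_algebraMap Q₀.1 (0 : K)
    rwa [map_zero] at this

/-- points near `P` are in the chart and regular -/
theorem near_reg {v : ι} {P : C.Pt} {Q : Place K F}
    (hP : A.nv v (E.x P.1 C.b) = E.nx A v P.1) (hd : A.cst 2 v * E.dl A v P.1 Q < 1) :
    ∃ hQ : E.x Q C.b ≠ 0, C.Reg A v ⟨Q, hQ⟩ ∧
      ∀ i, A.nv v (C.ev ⟨Q, hQ⟩ (C.y i) - C.ev P (C.y i)) ≤ A.cst 2 v * E.dl A v P.1 Q := by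
  set np := E.nx A v P.1 with hnp
  set nq := E.nx A v Q with hnq
  set d := E.dl A v P.1 Q with hdd
  have hnp0 : 0 < np := E.nx_pos A v P.1
  have hnq0 : 0 < nq := E.nx_pos A v Q
  have hd0 : 0 ≤ d := E.dl_nonneg A v P.1 Q
  have hmin : ∀ i j, A.nv v (E.x P.1 i * E.x Q j - E.x P.1 j * E.x Q i) ≤ d * (np * nq) := by
    intro i j
    rw [hdd, Emb.dl, div_mul_cancel₀ _ (mul_pos hnp0 hnq0).ne']
    exact le_ciSup (f := fun ij : Fin (E.r + 1) × Fin (E.r + 1) =>
      A.nv v (E.x P.1 ij.1 * E.x Q ij.2 - E.x P.1 ij.2 * E.x Q ij.1))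
      (Set.finite_range _).bddAbove (i, j)
  obtain ⟨a, ha⟩ := AVFam.exists_nrm (A := A) v (E.x Q)
  have ha' : A.nv v (E.x Q a) = nq := ha
  have hxa : ∀ i, A.nv v (E.x P.1 i) ≤ np := fun i => AVFam.le_nrm v (E.x P.1) i
  have hxq : ∀ i, A.nv v (E.x Q i) ≤ nq := fun i => AVFam.le_nrm v (E.x Q) i
  have hm := hmin C.b a
  have e1 : A.nv v (E.x P.1 C.b * E.x Q a) = np * nq := by rw [map_mul, hP, ha']
  have e2 : A.nv v (E.x P.1 a * E.x Q C.b) ≤ np * A.nv v (E.x Q C.b) := by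
    rw [map_mul]; exact mul_le_mul_of_nonneg_right (hxa a) (AbsoluteValue.nonneg _ _)
  have hbq : nq ≤ A.cst 2 v * A.nv v (E.x Q C.b) := by
    by_cases hna : IsNonarchimedean (A.nv v)
    · have hc : A.cst 2 v = 1 := by
        unfold AVFam.cst; rw [if_pos hna]
      rw [hc, one_mul] at hd ⊢
      have h3 : A.nv v (E.x P.1 C.b * E.x Q a) ≤ max (A.nv v (E.x P.1 a * E.x Q C.b))
          (A.nv v (E.x P.1 C.b * E.x Q a - E.x P.1 a * E.x Q C.b)) := by
        have := hna (E.x P.1 a * E.x Q C.b) (E.x P.1 C.b * E.x Q a - E.x P.1 a * E.x Q C.b)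
        rwa [add_sub_cancel] at this
      rw [e1] at h3
      rcases le_max_iff.1 h3 with h4 | h4
      · have h5 := h4.trans e2
        exact le_of_mul_le_mul_left h5 hnp0
      · exfalso
        have h5 := h4.trans hm
        have h6 : 0 < np * nq := mul_pos hnp0 hnq0
        nlinarith
    · have hc : A.cst 2 v = 2 := by
        unfold AVFam.cst; rw [if_neg hna]; norm_num
      rw [hc] at hd ⊢
      have h3 : A.nv v (E.x P.1 C.b * E.x Q a) ≤ A.nv v (E.x P.1 a * E.x Q C.b) +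
          A.nv v (E.x P.1 C.b * E.x Q a - E.x P.1 a * E.x Q C.b) := by
        have := (A.nv v).add_le (E.x P.1 a * E.x Q C.b)
          (E.x P.1 C.b * E.x Q a - E.x P.1 a * E.x Q C.b)
        rwa [add_sub_cancel] at this
      rw [e1] at h3
      have h6 : 0 < np * nq := mul_pos hnp0 hnq0
      have h7 : np * nq ≤ np * A.nv v (E.x Q C.b) + d * (np * nq) := by linarith
      have h8 : np * nq ≤ np * (2 * A.nv v (E.x Q C.b)) := by nlinarith
      exact le_of_mul_le_mul_left h8 hnp0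
  have hxb0 : 0 < A.nv v (E.x Q C.b) := by
    by_contra h
    have h0 : A.nv v (E.x Q C.b) = 0 := le_antisymm (not_lt.1 h) (AbsoluteValue.nonneg _ _)
    rw [h0, mul_zero] at hbq
    linarith
  have hQ : E.x Q C.b ≠ 0 := (AbsoluteValue.pos_iff _).1 hxb0
  refine ⟨hQ, fun i => ?_, fun i => ?_⟩
  · rw [ev_y, map_div₀, div_le_iff₀ hxb0]
    exact (hxq i).trans hbq
  · rw [ev_y, ev_y]
    have h9 : E.x Q i / E.x Q C.b - E.x P.1 i / E.x P.1 C.b =
        (E.x P.1 C.b * E.x Q i - E.x P.1 i * E.x Q C.b) / (E.x P.1 C.b * E.x Q C.b) := by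
      have := P.2
      field_simp
    change A.nv v (E.x Q i / E.x Q C.b - E.x P.1 i / E.x P.1 C.b) ≤ _
    rw [h9, map_div₀, map_mul, hP, div_le_iff₀ (mul_pos hnp0 hxb0)]
    refine (hmin C.b i).trans ?_
    have h10 : d * (np * nq) ≤ d * (np * (A.cst 2 v * A.nv v (E.x Q C.b))) :=
      mul_le_mul_of_nonneg_left (mul_le_mul_of_nonneg_left hbq hnp0.le) hd0
    calc d * (np * nq) ≤ _ := h10
      _ = _ := by ring

/-- `P` itself -/
theorem reg_self {v : ι} {P : C.Pt} (hP : A.nv v (E.x P.1 C.b) = E.nx A v P.1) :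
    C.Reg A v P := by
  intro i
  have h0 : 0 < E.nx A v P.1 := E.nx_pos A v P.1
  rw [ev_y, map_div₀, hP, div_le_iff₀ h0]
  have h1 : A.nv v (E.x P.1 i) ≤ E.nx A v P.1 := AVFam.le_nrm v (E.x P.1) i
  have h2 := (A.mc_cst 2).one_le v
  nlinarith

/-- **continuity** -/
theorem cont1 [CharZero K] (z : C.R) : ∃ D, MC D ∧ ∀ v (P Q : C.Pt), C.Reg A v P → C.Reg A v Q →
    ∀ δ, 0 ≤ δ → (∀ i, A.nv v (C.ev Q (C.y i) - C.ev P (C.y i)) ≤ δ) →
      A.nv v (C.ev Q z - C.ev P z) ≤ D v * δ := by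
  classical
  haveI := C.finiteType
  obtain ⟨g, hg⟩ := C.sm.diag_gen z
  choose D hD hD' using fun i => C.bd2 A (g i)
  refine ⟨fun v => A.cst (Fintype.card (Fin (E.r + 1))) v * ∏ j, D j v,
    (A.mc_cst _).mul (MC.prod _ fun j _ => hD j), fun v P Q hP hQ δ hδ h => ?_⟩
  have h1 := congrArg (pp (C.ev P) (C.ev Q)) hg
  rw [pp_dlt, map_sum] at h1
  rw [← h1, mul_assoc]
  refine A.sum_le' _ v (mul_nonneg (Finset.prod_nonneg fun j _ => (hD j).nonneg v) hδ) fun j => ?_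
  rw [map_mul, pp_dlt, map_mul]
  refine mul_le_mul ?_ (h j) (AbsoluteValue.nonneg _ _)
    (Finset.prod_nonneg fun j _ => (hD j).nonneg v)
  exact (hD' j v P Q hP hQ).trans (MC.le_prod (fun a _ => hD a) (Finset.mem_univ j) v)

theorem add_le2 (v : ι) {x y : K} {M : ℝ} (hM : 0 ≤ M) (hx : A.nv v x ≤ M)
    (hy : A.nv v y ≤ M) : A.nv v (x + y) ≤ A.cst 2 v * M := by
  have := A.sum_le' (α := Fin 2) (fun k => if k = 0 then x else y) v hM (by
    intro k
    fin_cases k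
    · exact hx
    · exact hy)
  simpa using this

theorem cont2 [CharZero K] (T : C.R ⊗[K] C.R) : ∃ D, MC D ∧ ∀ v (P P' Q Q' : C.Pt),
    C.Reg A v P → C.Reg A v P' → C.Reg A v Q → C.Reg A v Q' → ∀ δ, 0 ≤ δ →
    (∀ i, A.nv v (C.ev Q (C.y i) - C.ev P (C.y i)) ≤ δ) →
    (∀ i, A.nv v (C.ev Q' (C.y i) - C.ev P' (C.y i)) ≤ δ) →
      A.nv v (pp (C.ev Q) (C.ev Q') T - pp (C.ev P) (C.ev P') T) ≤ D v * δ := by
  induction T using TensorProduct.induction_on with
  | zero =>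
    refine ⟨_, MC.one, fun v P P' Q Q' _ _ _ _ δ hδ _ _ => ?_⟩
    rw [map_zero, map_zero, sub_zero, map_zero, one_mul]
    exact hδ
  | tmul a b =>
    obtain ⟨D₁, h₁, h₁'⟩ := C.bd A a
    obtain ⟨D₂, h₂, h₂'⟩ := C.bd A b
    obtain ⟨D₃, h₃, h₃'⟩ := C.cont1 A a
    obtain ⟨D₄, h₄, h₄'⟩ := C.cont1 A b
    refine ⟨_, (A.mc_cst 2).mul ((h₃.mul h₂).mul (h₁.mul h₄)),
      fun v P P' Q Q' hP hP' hQ hQ' δ hδ hd hd' => ?_⟩
    rw [pp_tmul, pp_tmul]
    have e : C.ev Q a * C.ev Q' b - C.ev P a * C.ev P' b =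
        (C.ev Q a - C.ev P a) * C.ev Q' b + C.ev P a * (C.ev Q' b - C.ev P' b) := by ring
    have hx : A.nv v ((C.ev Q a - C.ev P a) * C.ev Q' b) ≤ (D₃ v * D₂ v) * δ := by
      rw [map_mul]
      calc _ ≤ (D₃ v * δ) * D₂ v := mul_le_mul (h₃' v P Q hP hQ δ hδ hd) (h₂' v Q' hQ')
            (AbsoluteValue.nonneg _ _) (mul_nonneg (h₃.nonneg v) hδ)
        _ = _ := by ring
    have hy : A.nv v (C.ev P a * (C.ev Q' b - C.ev P' b)) ≤ (D₁ v * D₄ v) * δ := by
      rw [map_mul]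
      calc _ ≤ D₁ v * (D₄ v * δ) := mul_le_mul (h₁' v P hP) (h₄' v P' Q' hP' hQ' δ hδ hd')
            (AbsoluteValue.nonneg _ _) (h₁.nonneg v)
        _ = _ := by ring
    rw [e, mul_assoc]
    refine add_le2 A v (mul_nonneg (mul_nonneg (mul_nonneg (h₃.nonneg v) (h₂.nonneg v))
      (mul_nonneg (h₁.nonneg v) (h₄.nonneg v))) hδ) ?_ ?_
    · refine hx.trans (mul_le_mul_of_nonneg_right (le_mul_of_one_le_right
        (mul_nonneg (h₃.nonneg v) (h₂.nonneg v)) ((h₁.mul h₄).one_le v)) hδ)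
    · refine hy.trans (mul_le_mul_of_nonneg_right (le_mul_of_one_le_left
        (mul_nonneg (h₁.nonneg v) (h₄.nonneg v)) ((h₃.mul h₂).one_le v)) hδ)
  | add x y hx hy =>
    obtain ⟨D₁, h₁, h₁'⟩ := hx
    obtain ⟨D₂, h₂, h₂'⟩ := hy
    refine ⟨_, (A.mc_cst 2).mul (h₁.mul h₂), fun v P P' Q Q' hP hP' hQ hQ' δ hδ hd hd' => ?_⟩
    rw [map_add, map_add, add_sub_add_comm, mul_assoc]
    refine add_le2 A v (mul_nonneg (mul_nonneg (h₁.nonneg v) (h₂.nonneg v)) hδ) ?_ ?_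
    · exact (h₁' v P P' Q Q' hP hP' hQ hQ' δ hδ hd hd').trans (mul_le_mul_of_nonneg_right
        (le_mul_of_one_le_right (h₁.nonneg v) (h₂.one_le v)) hδ)
    · exact (h₂' v P P' Q Q' hP hP' hQ hQ' δ hδ hd hd').trans (mul_le_mul_of_nonneg_right
        (le_mul_of_one_le_left (h₂.nonneg v) (h₁.one_le v)) hδ)

end Chart

end Fermat.Agent.MWL
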