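import Fermat.Agent.MWL.Near

/-!
# [LocUB]
-/

set_option autoImplicit false
set_option linter.unusedSectionVars false
set_option linter.style.haveILetI false

noncomputable section

namespace Fermat.Agent.MWL

open AlgebraicCurve Fermat.Agent.Curves Fermat.Agent.PicFlat Fermat.Agent.MWH TensorProduct

variable {K F ι : Type*} [Field K] [IsAlgClosed K] [Field F] [Algebra K F] [IsFunctionField K F]

theorem prod_filter_le {α : Type*} (s : Multiset α) (f : α → ℝ) (p : α → Prop)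
    [DecidablePred p] (hf : ∀ a, 0 ≤ f a) (h : ∀ a, ¬ p a → 1 ≤ f a) :
    ((s.filter p).map f).prod ≤ (s.map f).prod := by
  induction s using Multiset.induction_on with
  | empty => simp
  | cons a s ih =>
    have h0 : 0 ≤ ((s.filter p).map f).prod := Multiset.prod_nonneg fun x hx => by
      obtain ⟨b, _, rfl⟩ := Multiset.mem_map.1 hx
      exact hf b
    by_cases ha : p a
    · rw [Multiset.filter_cons_of_pos _ ha, Multiset.map_cons, Multiset.map_cons,
        Multiset.prod_cons, Multiset.prod_cons]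
      exact mul_le_mul_of_nonneg_left ih (hf a)
    · rw [Multiset.filter_cons_of_neg _ ha, Multiset.map_cons, Multiset.prod_cons]
      exact ih.trans (le_mul_of_one_le_left (h0.trans ih) (h a ha))

theorem prod_mono {α : Type*} (s : Multiset α) (f g : α → ℝ) (hf : ∀ a ∈ s, 0 ≤ f a)
    (h : ∀ a ∈ s, f a ≤ g a) : (s.map f).prod ≤ (s.map g).prod := by
  induction s using Multiset.induction_on with
  | empty => simp
  | cons a s ih =>
    rw [Multiset.map_cons, Multiset.map_cons, Multiset.prod_cons, Multiset.prod_cons]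
    have h0 : 0 ≤ (s.map f).prod := Multiset.prod_nonneg fun x hx => by
      obtain ⟨b, hb, rfl⟩ := Multiset.mem_map.1 hx
      exact hf b (Multiset.mem_cons_of_mem hb)
    exact mul_le_mul (h a (Multiset.mem_cons_self a s))
      (ih (fun b hb => hf b (Multiset.mem_cons_of_mem hb))
        fun b hb => h b (Multiset.mem_cons_of_mem hb)) h0
      ((hf a (Multiset.mem_cons_self a s)).trans (h a (Multiset.mem_cons_self a s)))

theorem nv_prod {A : AVFam K ι} {v : ι} {α : Type*} (s : Multiset α) (f : α → K) :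
    A.nv v (s.map f).prod = (s.map fun a => A.nv v (f a)).prod := by
  induction s using Multiset.induction_on with
  | empty => simp
  | cons a s ih => rw [Multiset.map_cons, Multiset.map_cons, Multiset.prod_cons,
      Multiset.prod_cons, map_mul, ih]

theorem prod_msum {α β : Type*} [CommMonoid β] (s : Finset α) (n : α → ℕ) (f : α → β) :
    ((∑ Q ∈ s, n Q • ({Q} : Multiset α)).map f).prod = ∏ Q ∈ s, f Q ^ n Q := by
  classical
  induction s using Finset.induction_on with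
  | empty => simp
  | insert a s ha ih =>
    rw [Finset.sum_insert ha, Finset.prod_insert ha, Multiset.map_add, Multiset.prod_add, ih,
      Multiset.map_nsmul, Multiset.prod_nsmul, Multiset.map_singleton, Multiset.prod_singleton]

theorem card_msum {α : Type*} (s : Finset α) (n : α → ℕ) :
    Multiset.card (∑ Q ∈ s, n Q • ({Q} : Multiset α)) = ∑ Q ∈ s, n Q := by
  classical
  induction s using Finset.induction_on with
  | empty => simp
  | insert a s ha ih =>
    rw [Finset.sum_insert ha, Finset.sum_insert ha, Multiset.card_add, ih,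
      Multiset.card_nsmul, Multiset.card_singleton, mul_one]

theorem count_msum {α : Type*} [DecidableEq α] (s : Finset α) (n : α → ℕ) (a : α) :
    (∑ Q ∈ s, n Q • ({Q} : Multiset α)).count a = if a ∈ s then n a else 0 := by
  induction s using Finset.induction_on with
  | empty => simp
  | insert b s hb ih =>
    rw [Finset.sum_insert hb, Multiset.count_add, ih, Multiset.count_nsmul,
      Multiset.count_singleton]
    by_cases h : a = b
    · subst h
      simp [hb]
    · simp [h]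

namespace Chart

variable {E : Emb K F} (C : Chart E) (A : AVFam K ι)

open Classical in
theorem ord_prod_fac {i : Fin (E.r + 1)} {u : C.R ⊗[K] C.R}
    (hu : ∀ f ∈ RingHom.ker (mu K C.R), u * f ∈ Ideal.span {dlt K (C.y i)}) (Q₀ : C.Pt)
    (s : Multiset C.Pt) (h : ∀ Q ∈ s, pp (C.ev Q) (C.ev Q₀) u ≠ 0) :
    ((s.map fun Q => C.y i - algebraMap K _ (C.ev Q (C.y i))).prod : C.R) ≠ 0 ∧
    Q₀.1.ord (((s.map fun Q => C.y i - algebraMap K _ (C.ev Q (C.y i))).prod : C.R) : F) =
      (s.count Q₀ : ℤ) := by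
  induction s using Multiset.induction_on with
  | empty =>
    refine ⟨by simp, ?_⟩
    simp only [Multiset.map_zero, Multiset.prod_zero, Multiset.count_zero, Nat.cast_zero]
    exact Q₀.1.ord_one
  | cons a s ih =>
    obtain ⟨h1, h2⟩ := ih fun Q hQ => h Q (Multiset.mem_cons_of_mem hQ)
    obtain ⟨h3, h4, h5⟩ := ord_fac hu (h a (Multiset.mem_cons_self a s))
    rw [Multiset.map_cons, Multiset.prod_cons]
    have h3' : (C.y i - algebraMap K _ (C.ev a (C.y i)) : C.R) ≠ 0 := fun h0 => h3 (by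
      rw [h0]; rfl)
    have h1' : (((s.map fun Q => C.y i - algebraMap K _ (C.ev Q (C.y i))).prod : C.R) : F) ≠ 0 :=
      fun h0 => h1 (Subtype.ext h0)
    refine ⟨mul_ne_zero h3' h1, ?_⟩
    rw [MulMemClass.coe_mul, Q₀.1.ord_mul h3 h1', h2]
    by_cases he : a = Q₀
    · rw [h5 he, he, Multiset.count_cons_self]
      push_cast; ring
    · rw [h4 he, Multiset.count_cons_of_ne (fun h => he h.symm), zero_add]

open Classical in
/-- **iterated division** -/
theorem iterate {i : Fin (E.r + 1)} {u : C.R ⊗[K] C.R}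
    (hu : ∀ f ∈ RingHom.ker (mu K C.R), u * f ∈ Ideal.span {dlt K (C.y i)}) (k : ℕ) :
    ∃ (κ : Type) (_ : Fintype κ) (e : κ → C.R) (D : ι → ℝ), MC D ∧
    ∀ v M (h₀ : C.R), h₀ ∈ C.BF A C.y v M → h₀ ≠ 0 → ∀ s : Multiset C.Pt, Multiset.card s = k →
      (∀ Q ∈ s, C.Reg A v Q) → (∀ Q ∈ s, ∀ Q' ∈ s, pp (C.ev Q) (C.ev Q') u ≠ 0) →
      (∀ Q ∈ s, (s.count Q : ℤ) ≤ Q.1.ord (h₀ : F)) →
      ∃ h ∈ C.BF A e v (D v * M), (s.map fun Q => pl (C.ev Q) u).prod * h₀ =
        (s.map fun Q => C.y i - algebraMap K _ (C.ev Q (C.y i))).prod * h := by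
  induction k with
  | zero =>
    refine ⟨Fin (E.r + 1), inferInstance, C.y, _, MC.one, ?_⟩
    intro v M h₀ hh _ s hs _ _ _
    rw [Multiset.card_eq_zero] at hs
    subst hs
    refine ⟨h₀, by rwa [one_mul], by simp⟩
  | succ k ih =>
    obtain ⟨κ, i₁, e, D, hD, hD'⟩ := ih
    obtain ⟨κ', i₂, e', D', hE, hE'⟩ := C.division A hu e
    refine ⟨κ', i₂, e', _, hE.mul hD, ?_⟩
    intro v M h₀ hh hh0 s hs hreg hpp hcount
    obtain ⟨Q₀, hQ₀⟩ : ∃ a, a ∈ s := Multiset.card_pos_iff_exists_mem.1 (by rw [hs]; omega)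
    obtain ⟨s', rfl⟩ := Multiset.exists_cons_of_mem hQ₀
    have hs' : Multiset.card s' = k := by rw [Multiset.card_cons] at hs; omega
    have hmem : ∀ Q ∈ s', Q ∈ Q₀ ::ₘ s' := fun Q hQ => Multiset.mem_cons_of_mem hQ
    have h0m : Q₀ ∈ Q₀ ::ₘ s' := Multiset.mem_cons_self _ _
    obtain ⟨h, hhB, heq⟩ := hD' v M h₀ hh hh0 s' hs' (fun Q hQ => hreg Q (hmem Q hQ))
      (fun Q hQ Q' hQ' => hpp Q (hmem Q hQ) Q' (hmem Q' hQ'))
      (fun Q hQ => le_trans (by exact_mod_cast Multiset.count_le_count_cons Q Q₀ s')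
        (hcount Q (hmem Q hQ)))
    set U : C.R := (s'.map fun Q => pl (C.ev Q) u).prod with hU
    set S : C.R := (s'.map fun Q => C.y i - algebraMap K _ (C.ev Q (C.y i))).prod with hS
    obtain ⟨hS0, hSord⟩ := C.ord_prod_fac hu Q₀ s' fun Q hQ => hpp Q (hmem Q hQ) Q₀ h0m
    rw [← hS] at hS0 hSord
    have hUval : C.ev Q₀ U ≠ 0 := by
      rw [hU, map_multiset_prod, Multiset.map_map]
      rw [Ne, Multiset.prod_eq_zero_iff]
      intro h0
      obtain ⟨Q, hQ, hQ'⟩ := Multiset.mem_map.1 h0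
      exact hpp Q (hmem Q hQ) Q₀ h0m hQ'
    have hU0 : U ≠ 0 := by
      intro h0
      apply hUval
      rw [h0, map_zero]
    have hUF : (U : F) ≠ 0 := fun h0 => hU0 (Subtype.ext h0)
    have hSF : (S : F) ≠ 0 := fun h0 => hS0 (Subtype.ext h0)
    have hh0F : (h₀ : F) ≠ 0 := fun h0 => hh0 (Subtype.ext h0)
    have heqF : (U : F) * (h₀ : F) = (S : F) * (h : F) := congrArg (Subtype.val : C.R → F) heq
    have hhF : (h : F) ≠ 0 := by
      intro h0
      rw [h0, mul_zero] at heqF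
      exact mul_ne_zero hUF hh0F heqF
    have hord := congrArg Q₀.1.ord heqF
    rw [Q₀.1.ord_mul hUF hh0F, Q₀.1.ord_mul hSF hhF, hSord,
      ord_eq_zero_of_value (C.ev_mem Q₀ U) hUval] at hord
    have hc := hcount Q₀ h0m
    rw [Multiset.count_cons_self] at hc
    push_cast at hc
    have hval : C.ev Q₀ h = 0 := value_eq_zero_of_ord (C.ev_mem Q₀ h) (by omega)
    obtain ⟨h', hh'B, heq'⟩ := hE' v Q₀ (hreg Q₀ h0m) _ h hhB hval
    refine ⟨h', by rwa [mul_assoc], ?_⟩
    rw [Multiset.map_cons, Multiset.prod_cons, Multiset.map_cons, Multiset.prod_cons, ← hU, ← hS,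
      mul_assoc, heq, mul_left_comm, heq']
    ring

open Classical in
/-- **the upper bound in a chart** -/
theorem ub [CharZero K] : ∃ D, MC D ∧ ∀ v c, c ≠ 0 → ∀ P : Place K F,
    A.nv v (E.x P C.b) = E.nx A v P →
      A.nv v (E.dot c P) ≤ D v * (sup A v c * E.nx A v P * E.dD A v P (E.dv c)) := by
  haveI := C.finiteType
  obtain ⟨u, hu, hsum⟩ := C.sm.exists_units
  choose D₂ hD₂ hD₂' using fun i => C.cont2 A (u i)
  set P₂ : ι → ℝ := fun v => ∏ i, D₂ i v with hP₂
  have hP₂m : MC P₂ := MC.prod _ fun i _ => hD₂ i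
  obtain ⟨N, hN, hN'⟩ := near_lemma A (A.mc_cst (Fintype.card (Fin (E.r + 1))))
    (hP₂m.mul (A.mc_cst 2))
  choose κ iκ e D hD hD' using fun (x : Fin (E.r + 1) × Fin (E.m + 1)) =>
    C.iterate A (hu x.1) (x.2 : ℕ)
  choose B hB hB' using fun (x : Fin (E.r + 1) × Fin (E.m + 1)) => C.BF_ev A (e x)
  refine ⟨fun v => (∏ x, B x v * D x v) * (N v * A.cst 2 v) ^ E.m,
    (MC.prod _ fun x _ => (hB x).mul (hD x)).mul ((hN.mul (A.mc_cst 2)).pow _), ?_⟩
  intro v c hc P hP
  set W : ℝ := N v * A.cst 2 v with hW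
  have hnp : 0 < E.nx A v P := E.nx_pos A v P
  have hxb : E.x P C.b ≠ 0 := by
    rw [← (A.nv v).pos_iff, hP]; exact hnp
  set P₀ : C.Pt := ⟨P, hxb⟩ with hP₀
  have hregP : C.Reg A v P₀ := C.reg_self A hP
  have hN1 := hN.one_le v
  have hc1 := (A.mc_cst 2).one_le v
  have hW1 : 1 ≤ W := by rw [hW]; nlinarith
  -- a good unit
  obtain ⟨i, hi⟩ : ∃ i, 1 ≤ A.cst (Fintype.card (Fin (E.r + 1))) v *
      A.nv v (pp (C.ev P₀) (C.ev P₀) (u i)) := by
    obtain ⟨i, hi⟩ := Finite.exists_max fun i => A.nv v (pp (C.ev P₀) (C.ev P₀) (u i))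
    refine ⟨i, ?_⟩
    have h1 := A.sum_le' (fun i => pp (C.ev P₀) (C.ev P₀) (u i)) v
      ((A.nv v).nonneg (pp (C.ev P₀) (C.ev P₀) (u i))) hi
    have h2 : ∑ i, pp (C.ev P₀) (C.ev P₀) (u i) = 1 := by
      simp only [pp_self]
      rw [← map_sum, hsum, map_one]
    rwa [h2, map_one] at h1
  -- the zeros
  set sa : Multiset (Place K F) := ∑ Q ∈ (E.dv c).support, (E.dv c Q).toNat • {Q} with hsa
  have hcount : ∀ Q, sa.count Q = (E.dv c Q).toNat := fun Q => by
    rw [hsa, count_msum]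
    split_ifs with h
    · rfl
    · rw [Finsupp.notMem_support_iff.1 h]; rfl
  have hcard : Multiset.card sa = E.m := by
    have h1 : ((Multiset.card sa : ℕ) : ℤ) = E.m := by
      rw [hsa, card_msum, sum_toNat _ (Emb.dv_nonneg hc), E.dv_degree c]
    exact_mod_cast h1
  have hdD : (sa.map fun Q => E.dl A v P Q).prod = E.dD A v P (E.dv c) := by
    rw [hsa, prod_msum]; rfl
  set nr : Place K F → Prop := fun Q => W * E.dl A v P Q < 1 with hnr
  have hnear : ∀ Q, nr Q → A.cst 2 v * E.dl A v P Q < 1 := fun Q hQ => by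
    have h1 : A.cst 2 v * E.dl A v P Q ≤ W * E.dl A v P Q := by
      refine mul_le_mul_of_nonneg_right ?_ (E.dl_nonneg A v P Q)
      rw [hW]; nlinarith
    exact lt_of_le_of_lt h1 hQ
  set sn := sa.filter nr with hsn
  have hlift : ∀ Q ∈ sn, E.x Q C.b ≠ 0 := fun Q hQ =>
    (C.near_reg A (P := P₀) hP (hnear Q (Multiset.mem_filter.1 hQ).2)).choose
  set s : Multiset C.Pt := sn.pmap (fun Q h => (⟨Q, h⟩ : C.Pt)) hlift with hs
  have hsval : s.map (fun Q : C.Pt => Q.1) = sn := by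
    rw [hs, Multiset.map_pmap]
    exact (Multiset.pmap_eq_map _ id sn hlift).trans (Multiset.map_id sn)
  have hmem : ∀ Q ∈ s, Q.1 ∈ sn := fun Q hQ => by
    rw [← hsval]; exact Multiset.mem_map_of_mem (fun Q : C.Pt => Q.1) hQ
  have hmnr : ∀ Q ∈ s, nr Q.1 := fun Q hQ => (Multiset.mem_filter.1 (hmem Q hQ)).2
  have hregs : ∀ Q ∈ s, C.Reg A v Q ∧ ∀ j, A.nv v (C.ev Q (C.y j) - C.ev P₀ (C.y j)) ≤
      A.cst 2 v * E.dl A v P Q.1 := fun Q hQ =>
    (C.near_reg A (P := P₀) hP (hnear Q.1 (hmnr Q hQ))).choose_spec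
  have hcs : Multiset.card s ≤ E.m := by
    rw [← hcard, ← Multiset.card_map (fun Q : C.Pt => Q.1) s, hsval]
    exact Multiset.card_le_card (Multiset.filter_le _ _)
  -- the units are large
  have hbig : ∀ (Q Q' : C.Pt) (d : ℝ), 0 ≤ d → C.Reg A v Q → C.Reg A v Q' →
      (∀ j, A.nv v (C.ev Q (C.y j) - C.ev P₀ (C.y j)) ≤ A.cst 2 v * d) →
      (∀ j, A.nv v (C.ev Q' (C.y j) - C.ev P₀ (C.y j)) ≤ A.cst 2 v * d) → W * d < 1 →
      1 ≤ N v * A.nv v (pp (C.ev Q) (C.ev Q') (u i)) := by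
    intro Q Q' d hd hQ hQ' h1 h2 hWd
    refine hN' v _ _ d hd hi ?_ ?_
    · refine (hD₂' i v P₀ P₀ Q Q' hregP hregP hQ hQ' _ (by positivity) h1 h2).trans ?_
      rw [mul_assoc]
      refine mul_le_mul_of_nonneg_right ?_ (by positivity)
      exact MC.le_prod (fun a _ => hD₂ a) (Finset.mem_univ i) v
    · refine lt_of_le_of_lt ?_ hWd
      refine mul_le_mul_of_nonneg_right ?_ hd
      rw [hW]; nlinarith
  have hppP : ∀ Q ∈ s, 1 ≤ N v * A.nv v (pp (C.ev Q) (C.ev P₀) (u i)) := by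
    intro Q hQ
    refine hbig Q P₀ (E.dl A v P Q.1) (E.dl_nonneg A v P Q.1) (hregs Q hQ).1 hregP
      (hregs Q hQ).2 (fun j => ?_) (hmnr Q hQ)
    rw [sub_self, map_zero]
    exact mul_nonneg (by linarith) (E.dl_nonneg A v P Q.1)
  have hpp : ∀ Q ∈ s, ∀ Q' ∈ s, pp (C.ev Q) (C.ev Q') (u i) ≠ 0 := by
    intro Q hQ Q' hQ' h0
    have h1 := hbig Q Q' (max (E.dl A v P Q.1) (E.dl A v P Q'.1))
      (le_max_of_le_left (E.dl_nonneg A v P Q.1)) (hregs Q hQ).1 (hregs Q' hQ').1
      (fun j => ((hregs Q hQ).2 j).trans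
        (mul_le_mul_of_nonneg_left (le_max_left _ _) (by linarith)))
      (fun j => ((hregs Q' hQ').2 j).trans
        (mul_le_mul_of_nonneg_left (le_max_right _ _) (by linarith))) (by
        rcases max_choice (E.dl A v P Q.1) (E.dl A v P Q'.1) with h | h <;> rw [h]
        · exact hmnr Q hQ
        · exact hmnr Q' hQ')
    rw [h0, map_zero, mul_zero] at h1
    linarith
  -- the section
  set h₀ : C.R := ∑ j, c j • C.y j with hh₀
  have hh₀F : (h₀ : F) = E.G c / E.G (Pi.single C.b 1) := by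
    have h1 : (h₀ : F) = ∑ j, c j • (C.y j : F) := by
      rw [hh₀]
      exact map_sum C.R.val _ _
    rw [h1, Emb.G, Finset.sum_div]
    refine Finset.sum_congr rfl fun j _ => ?_
    rw [coe_y, G_single, smul_div_assoc]
  have hh₀0 : h₀ ≠ 0 := by
    intro h0
    have h1 : (h₀ : F) = 0 := by rw [h0]; rfl
    rw [hh₀F] at h1
    exact div_ne_zero (E.G_ne_zero hc) (E.G_ne_zero (single_ne E C.b)) h1
  have hh₀B : h₀ ∈ C.BF A C.y v (sup A v c) := ⟨c, fun j => AVFam.le_nrm v c j, rfl⟩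
  have hh₀P : C.ev P₀ h₀ = E.dot c P / E.x P C.b := by
    rw [hh₀, map_sum, Emb.dot, Finset.sum_div]
    refine Finset.sum_congr rfl fun j _ => ?_
    rw [map_smul, ev_y, smul_eq_mul, mul_div_assoc]
  have hcountle : ∀ Q ∈ s, (s.count Q : ℤ) ≤ Q.1.ord (h₀ : F) := by
    intro Q hQ
    have h1 : s.count Q = sn.count Q.1 := by
      rw [← hsval]
      exact (Multiset.count_map_eq_count' (fun Q : C.Pt => Q.1) s
        (fun a b h => Subtype.ext h) Q).symm
    have h2 : sn.count Q.1 = (E.dv c Q.1).toNat := by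
      rw [hsn, Multiset.count_filter_of_pos (hmnr Q hQ), hcount]
    have hb : E.dot (Pi.single C.b 1) Q.1 ≠ 0 := by rw [dot_single]; exact Q.2
    rw [h1, h2, hh₀F, Emb.ord_ratio hc (single_ne E C.b), Emb.dv_eq_zero hb,
      Int.toNat_of_nonneg (Emb.dv_nonneg hc _), sub_zero]
  set x : Fin (E.r + 1) × Fin (E.m + 1) := (i, ⟨Multiset.card s, by omega⟩) with hx
  obtain ⟨h, hhB, heq⟩ := hD' x v (sup A v c) h₀ hh₀B hh₀0 s rfl (fun Q hQ => (hregs Q hQ).1)
    hpp hcountle
  have hsup : 0 ≤ sup A v c := AVFam.nrm_nonneg v c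
  have hBh : A.nv v (C.ev P₀ h) ≤ B x v * (D x v * sup A v c) :=
    hB' x v P₀ hregP _ (mul_nonneg ((hD x).nonneg v) hsup) h hhB
  have heval : (s.map fun Q => A.nv v (pp (C.ev Q) (C.ev P₀) (u i))).prod *
      (A.nv v (E.dot c P) / E.nx A v P) =
      (s.map fun Q => A.nv v (C.ev P₀ (C.y i) - C.ev Q (C.y i))).prod *
        A.nv v (C.ev P₀ h) := by
    have heq' : (s.map fun Q => pl (C.ev Q) (u i)).prod * h₀ =
      (s.map fun Q => C.y i - algebraMap K _ (C.ev Q (C.y i))).prod * h := heq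
    have h1 := congrArg (C.ev P₀) heq'
    rw [map_mul, map_mul, map_multiset_prod, map_multiset_prod, Multiset.map_map,
      Multiset.map_map, hh₀P] at h1
    have h2 := congrArg (A.nv v) h1
    rw [map_mul, map_mul, nv_prod, nv_prod, map_div₀, hP] at h2
    have h3 : ∀ Q : C.Pt, C.ev P₀ (C.y i - algebraMap K _ (C.ev Q (C.y i))) =
        C.ev P₀ (C.y i) - C.ev Q (C.y i) := fun Q => by
      rw [map_sub, AlgHom.commutes]; rfl
    simp only [Function.comp_apply, h3] at h2
    exact h2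
  set X := A.nv v (E.dot c P) / E.nx A v P with hX
  have hX0 : 0 ≤ X := div_nonneg (AbsoluteValue.nonneg _ _) hnp.le
  set Y := A.nv v (C.ev P₀ h) with hY
  have hY0 : 0 ≤ Y := AbsoluteValue.nonneg _ _
  have h1 : X ≤ (s.map fun Q => N v * A.nv v (pp (C.ev Q) (C.ev P₀) (u i))).prod * X := by
    refine le_mul_of_one_le_left hX0 ?_
    have := prod_mono s (fun _ => (1 : ℝ)) (fun Q => N v * A.nv v (pp (C.ev Q) (C.ev P₀) (u i)))
      (fun _ _ => zero_le_one) hppP
    simpa using this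
  have h2 : (s.map fun Q => N v * A.nv v (pp (C.ev Q) (C.ev P₀) (u i))).prod * X =
      (s.map fun Q => N v * A.nv v (C.ev P₀ (C.y i) - C.ev Q (C.y i))).prod * Y := by
    rw [Multiset.prod_map_mul, Multiset.prod_map_mul, mul_assoc, heval, mul_assoc]
  have h3 : (s.map fun Q => N v * A.nv v (C.ev P₀ (C.y i) - C.ev Q (C.y i))).prod ≤
      (s.map fun Q => W * E.dl A v P Q.1).prod := by
    refine prod_mono s _ _ (fun Q _ => mul_nonneg (by linarith) (AbsoluteValue.nonneg _ _))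
      fun Q hQ => ?_
    rw [hW, mul_assoc]
    refine mul_le_mul_of_nonneg_left ?_ (by linarith)
    rw [AbsoluteValue.map_sub]
    exact (hregs Q hQ).2 i
  have h4 : (s.map fun Q => W * E.dl A v P Q.1).prod = (sn.map fun Q => W * E.dl A v P Q).prod := by
    rw [← hsval, Multiset.map_map]; rfl
  have h5 : (sn.map fun Q => W * E.dl A v P Q).prod ≤ (sa.map fun Q => W * E.dl A v P Q).prod :=
    prod_filter_le sa _ nr (fun Q => mul_nonneg (by linarith) (E.dl_nonneg A v P Q))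
      fun Q hQ => not_lt.1 hQ
  have h6 : (sa.map fun Q => W * E.dl A v P Q).prod = W ^ E.m * E.dD A v P (E.dv c) := by
    rw [Multiset.prod_map_mul, hdD, Multiset.map_const', Multiset.prod_replicate, hcard]
  have h7 : X ≤ (W ^ E.m * E.dD A v P (E.dv c)) * Y := by
    refine h1.trans (h2.le.trans (mul_le_mul_of_nonneg_right ?_ hY0))
    exact (h3.trans h4.le).trans (h5.trans h6.le)
  have hdD0 : 0 ≤ E.dD A v P (E.dv c) := E.dD_nonneg A v P _
  have hWm : 0 ≤ W ^ E.m * E.dD A v P (E.dv c) := mul_nonneg (pow_nonneg (by linarith) _) hdD0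
  have h8 : X ≤ (W ^ E.m * E.dD A v P (E.dv c)) * ((∏ x, B x v * D x v) * sup A v c) := by
    refine h7.trans (mul_le_mul_of_nonneg_left (hBh.trans ?_) hWm)
    rw [← mul_assoc]
    refine mul_le_mul_of_nonneg_right ?_ hsup
    exact MC.le_prod (C := fun x v => B x v * D x v) (fun a _ => (hB a).mul (hD a))
      (Finset.mem_univ x) v
  rw [hX, div_le_iff₀ hnp] at h8
  calc A.nv v (E.dot c P) ≤ _ := h8
    _ = _ := by ring

end Chart

/-- **[LocUB]** -/
theorem locUB [CharZero K] (E : Emb K F) (A : AVFam K ι) : LocUB E A := by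
  classical
  choose w hw using exists_pencil E
  choose D hD hD' using fun b => (Chart.mk b (w b) (hw b) : Chart E).ub A
  refine ⟨fun v => ∏ b, D b v, MC.prod _ fun b _ => hD b, fun v c hc P => ?_⟩
  obtain ⟨b, hb⟩ := AVFam.exists_nrm (A := A) v (E.x P)
  refine (hD' b v c hc P hb).trans (mul_le_mul_of_nonneg_right
    (MC.le_prod (fun a _ => hD a) (Finset.mem_univ b) v) ?_)
  exact mul_nonneg (mul_nonneg (AVFam.nrm_nonneg v c) (E.nx_pos A v P).le)
    (E.dD_nonneg A v P _)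

end Fermat.Agent.MWL
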